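import Mathlib
import Fermat.Agent.S59.NonMin.Defs
import Fermat.Agent.S59.Asm.Red

/-!
# S59, package CASE-C (planner helper53): the step at `p` (flat ⟹ ordinary)

Plan: `NOTES/plan/S59_CASEC.md`.  Case C of `NOTES/plan/S59.md`: `ρbar` is flat at `p`, the
representation `ρ` to be proved modular is strictly ordinary and NOT flat at `p` (a semistable
curve with multiplicative reduction at `p` and `p ∣ v_p(Δ)`: the Frey case).

Method (Wiles, Ch. 2, in Diamond's form): after the induction on `Sig` of RT-NONMIN (flat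
condition, level `N_Sig` prime to `p`) ONE more step of the numerical criterion, from the flat
deformation ring at level `N_Sig` to the ORDINARY deformation ring (prelude
`GaloisRep.ordinaryCondition`, Wiles' Selmer condition) at level `N_Sig · p`.

* `condOrd`       : the ordinary deformation condition with auxiliary set `T`.
* `Stmt_DEFord`   : its universal deformation ring exists.
* `Stmt_ORDT`     : the Hecke–Galois datum at a level prime to `p` is ordinary at `p` when `ρbar`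
                    is (points: `S32` + `R.stmt_FlatOrd`; then glue over the reduced ring `T`).
* `Stmt_TAUP`     : the surjection `τ : R^ord → R^fl`.
* `Stmt_KUMP`, `Stmt_FLATEXT`, `Stmt_SELMERp` : the Selmer bound at `p`.
* `NMStepP`, `Stmt_NMGEOM2` : the geometry of the step at `p` (Ihara at `p`, `U_p`, Eichler–Shimura
                    at `p`), bundled with `NonMin.Stmt_NMGEOM`.
* `Stmt_CPNE`     : the constant `z² - 1` does not vanish at a point.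
* `Stmt_STEPP`    : the step.
* `Stmt_MLTc`     : modularity lifting in case C;  `Stmt_GENWIRE` : the final wiring to
                    `Asm.Stmt_MLTgen`.

No `sorry`; definitions only.
-/

set_option autoImplicit false

open Polynomial CuspForm CongruenceSubgroup ModularFormClass IsLocalRing

namespace Fermat.Agent.S59.CaseC

open Fermat.Agent.S59 Fermat.Agent.S59.Asm Fermat.Agent.S59.NonMin

/-- The Galois group of `ℚ`. -/
local notation "Γℚ" => AlgebraicClosure ℚ ≃ₐ[ℚ] AlgebraicClosure ℚ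

/-- The ordinary deformation condition with auxiliary set `T` (compare `S56.condFl`,
`S56.condSO`): determinant cyclotomic, ordinary at `p`, unramified outside `Smin ∪ T`, unipotent
on inertia at the primes of `Smin` different from `p`. -/
def condOrd (𝒪 : Type) [CommRing 𝒪] (p : ℕ) (Smin T : Finset ℕ) :
    ∀ ⦃A : Type⦄ [CommRing A] [IsLocalRing A] [Algebra 𝒪 A], GaloisRepAdic A → Prop :=
  fun _A _ _ _ ρ => GaloisRep.ordinaryCondition 𝒪 p (Smin ∪ T) ρ ∧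
    ∀ q ∈ Smin, q.Prime → q ≠ p → ρ.IsUnipotentOnInertiaAt q

/-- A strictly ordinary representation of type `cond … false` is of type `condOrd`. -/
theorem condOrd_of_condSO {𝒪 : Type} [CommRing 𝒪] {p : ℕ} {Smin T : Finset ℕ}
    {A : Type} [CommRing A] [IsLocalRing A] [Algebra 𝒪 A] {ρ : GaloisRepAdic A}
    (h : cond 𝒪 p false Smin T ρ) : condOrd 𝒪 p Smin T ρ :=
  ⟨GaloisRep.ordinaryCondition_of_strictOrdinaryCondition h.1, h.2⟩

/-- The data of an ordinary line of `ρ` at the place `P` over `p`, with the unramified character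
`z` of the decomposition group on the quotient. -/
structure OrdLine {A : Type} [CommRing A] [IsLocalRing A] (ρ : GaloisRepAdic A)
    (P : ValuationSubring (AlgebraicClosure ℚ)) where
  /-- the line -/
  L : Submodule A ρ.V
  isLine : ∃ b : Module.Basis (Fin 2) A ρ.V, L = A ∙ b 0
  stable : ∀ σ ∈ P.decompositionSubgroup ℚ, ∀ v ∈ L, ρ.ρ σ v ∈ L
  inertia : ∀ σ ∈ P.inertiaSubgroupIn ℚ, ∀ v : ρ.V, ρ.ρ σ v - v ∈ L

/-- `z` is the eigenvalue of `ρ(g)` on the quotient by the ordinary line. -/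
def OrdLine.IsQuotEigen {A : Type} [CommRing A] [IsLocalRing A] {ρ : GaloisRepAdic A}
    {P : ValuationSubring (AlgebraicClosure ℚ)} (ℒ : OrdLine ρ P) (g : Γℚ) (z : A) : Prop :=
  ∀ v : ρ.V, ρ.ρ g v - z • v ∈ ℒ.L

/-! ## 1. Deformation theory -/

/-- **DEF-ord**: the universal deformation ring of `condOrd` exists (as `H99.stmt_DEF`; the
ordinary line is unique because inertia acts on it by the cyclotomic character `≠ 1`). -/
def Stmt_DEFord : Prop :=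
  ∀ (𝒪 : Type) [CommRing 𝒪] [IsDomain 𝒪] [IsDiscreteValuationRing 𝒪]
    [IsAdicComplete (maximalIdeal 𝒪) 𝒪] [Finite (ResidueField 𝒪)]
    (p : ℕ) [Fact p.Prime], p ≠ 2 → (p : 𝒪) ∈ maximalIdeal 𝒪 →
    ∀ (ρbar : ResidualGaloisRep (ResidueField 𝒪)),
    ρbar.IsAbsolutelyIrreducible →
    ∀ (Smin T : Finset ℕ), p ∈ Smin → (∀ q ∈ Smin ∪ T, q.Prime) →
    condOrd 𝒪 p Smin T (GaloisRepAdic.ofResidualGaloisRep ρbar) →
    Nonempty (GaloisRep.DeformationRingData 𝒪 ρbar (condOrd 𝒪 p Smin T))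

/-- **ORD-T**: a Hecke–Galois datum over the full local Hecke ring of a level PRIME TO `p` is
ordinary at `p` if the residual representation is.
[`S32.result`: `H.ρ` is flat at `p`; every point `T → 𝒪'` (`𝒪'` a complete discrete valuation
ring finite over `𝒪`) is flat (`H99.isFlatAt_baseChangeAlong_of_finite_free`-type closure) hence
ordinary (`S33.stmt_FlatOrd`); `T` is reduced and `𝒪`-free (`R.Pet.H98.stmt_HeckeReduced`), so it
embeds into the product of its points; choose `σ₀` in inertia with `ε(σ₀) ≢ 1`: `V = V₁ ⊕ V_ε`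
(Hensel), and `L := V_ε = V ∩ ∏ L_i` is the ordinary line.  Compare `Asm.H7.strictOrd_of`.] -/
def Stmt_ORDT : Prop :=
  ∀ (𝒪 : Type) [CommRing 𝒪] [IsDomain 𝒪] [IsDiscreteValuationRing 𝒪]
    [IsAdicComplete (maximalIdeal 𝒪) 𝒪] [Finite (ResidueField 𝒪)] [CharZero 𝒪]
    (p : ℕ) [Fact p.Prime], p ≠ 2 → (p : 𝒪) ∈ maximalIdeal 𝒪 →
    ∀ (ρbar : ResidualGaloisRep (ResidueField 𝒪)), ρbar.IsAbsolutelyIrreducible →
    (GaloisRepAdic.ofResidualGaloisRep ρbar).DetIsCyclotomic p →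
    (GaloisRepAdic.ofResidualGaloisRep ρbar).IsOrdinaryAt p →
    ∀ (N : ℕ) [NeZero N] [Fact (CuspForm.HasIntegralStructure N 2)] (S : Finset ℕ), p ∈ S →
    (∀ q : ℕ, q.Prime → q ∣ N → q ∈ S) → ¬ p ∣ N →
    ∀ (θ : CuspForm.heckeAlgebra N 2 (↑S : Set ℕ) →+* ResidueField 𝒪),
    ∀ (H : CuspForm.HeckeGaloisRepDatum N (↑S : Set ℕ) 𝒪 θ
        (CuspForm.heckeLocal N (↑S : Set ℕ) 𝒪 θ)),
    H.π = CuspForm.heckeLocal.π N (↑S : Set ℕ) 𝒪 θ →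
    H.ρ.DetIsCyclotomic p →
    H.ρ.residual.IsEquiv (ρbar.baseChangeAlong
      (ResidueField.map (algebraMap 𝒪 (CuspForm.heckeLocal N (↑S : Set ℕ) 𝒪 θ)))) →
    H.ρ.IsOrdinaryAt p

/-- **TAU-p**: if the universal flat deformation is ordinary, the ordinary deformation ring maps
onto the flat one.  [Universal property of `D'`; surjectivity as in `Asm.H99.stmt_TAU`
(`H99.surjective_of_isEquiv`).] -/
def Stmt_TAUP : Prop :=
  ∀ (𝒪 : Type) [CommRing 𝒪] [IsDomain 𝒪] [IsDiscreteValuationRing 𝒪]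
    [IsAdicComplete (maximalIdeal 𝒪) 𝒪] [Finite (ResidueField 𝒪)]
    (p : ℕ) [Fact p.Prime], p ≠ 2 → (p : 𝒪) ∈ maximalIdeal 𝒪 →
    ∀ (ρbar : ResidualGaloisRep (ResidueField 𝒪)) (Smin Sig : Finset ℕ),
    p ∈ Smin → (∀ q ∈ Smin ∪ Sig, q.Prime) →
    ∀ (D : GaloisRep.DeformationRingData 𝒪 ρbar (cond 𝒪 p true Smin Sig))
      (D' : GaloisRep.DeformationRingData 𝒪 ρbar (condOrd 𝒪 p Smin Sig)),
    D.ρ.IsOrdinaryAt p →
    ∃ τ : D'.R →ₐ[𝒪] D.R, Function.Surjective τ ∧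
      ∃ h : IsLocalHom (τ : D'.R →+* D.R),
        (D'.ρ.baseChangeAlong (τ : D'.R →+* D.R) h).IsEquiv D.ρ

/-! ## 2. The Selmer bound at `p` -/

/-- The subgroup `H₀` of the inertia group of `P`: the elements fixing every `w` some `p`-power
of which is a unit of `P` fixed by inertia (`ℚ̄^{H₀} = E(μ_{p^∞}, U_E^{1/p^∞})`, `E` the inertia
field: the maximal "peu ramifiée" `p`-Kummer extension of `E`). -/
def peuSubgroup (p : ℕ) (P : ValuationSubring (AlgebraicClosure ℚ)) : Subgroup Γℚ where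
  carrier := {σ | σ ∈ P.inertiaSubgroupIn ℚ ∧
    ∀ (w : AlgebraicClosure ℚ) (n : ℕ), w ^ p ^ n ∈ P → (w ^ p ^ n)⁻¹ ∈ P →
      (∀ τ ∈ P.inertiaSubgroupIn ℚ, τ (w ^ p ^ n) = w ^ p ^ n) → σ w = w}
  mul_mem' := by
    rintro a b ⟨ha, ha'⟩ ⟨hb, hb'⟩
    refine ⟨mul_mem ha hb, fun w n h1 h2 h3 => ?_⟩
    rw [AlgEquiv.mul_apply, hb' w n h1 h2 h3, ha' w n h1 h2 h3]
  one_mem' := ⟨one_mem _, fun _ _ _ _ _ => rfl⟩
  inv_mem' := by
    rintro a ⟨ha, ha'⟩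
    refine ⟨inv_mem ha, fun w n h1 h2 h3 => ?_⟩
    have := ha' w n h1 h2 h3
    calc a⁻¹ w = a⁻¹ (a w) := by rw [this]
      _ = w := by
        change (a⁻¹ * a) w = w
        rw [inv_mul_cancel]; rfl

/-- **KUM-p** (Kummer theory over the inertia field, `p` odd): let `A` be an abelian group killed
by `p ^ n` and `b : I_P → A` a cocycle for the cyclotomic action (`b (σ τ) = b σ + a_σ • b τ` when
`σ` acts on `μ_{p^n}` by `ζ ↦ ζ ^ a_σ`), CONTINUOUS (zero on the Galois group of a number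
field).  Then on `H₀ = peuSubgroup` the cocycle is a homomorphism
which factors through the Kummer character of `p`: if `h, h₀ ∈ H₀`, `π₀ ^ (p ^ n) = p` and
`h₀ π₀ = ζ π₀` with `ζ` a primitive `p ^ n`-th root of unity, `h π₀ = ζ ^ m π₀`, then
`b h = m • b h₀`.
[`E_n := E(μ_{p^n})`; `b` restricted to `G_{E_n}` is a homomorphism with
`b (g σ g⁻¹) = a_g • b σ`; Kummer theory over `E_n`: it is given by a subgroup
`W ⊂ E_n^× / (E_n^×)^{p^n}` on which `Gal(E_n / E)` acts trivially; `H^i(Gal(E_n/E), μ_{p^n}) = 0`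
(`p` odd: `μ_{p-1} ⊂ Gal` acts without fixed points), so `W` comes from `E^× = p^ℤ × U_E`.] -/
def Stmt_KUMP : Prop :=
  ∀ (p : ℕ) [Fact p.Prime], p ≠ 2 →
  ∀ (P : ValuationSubring (AlgebraicClosure ℚ)), P.LiesOverPrime p →
  ∀ (A : Type) [AddCommGroup A] (n : ℕ), (∀ x : A, (p ^ n) • x = 0) →
  ∀ (b : Γℚ → A),
    (∃ F : IntermediateField ℚ (AlgebraicClosure ℚ), FiniteDimensional ℚ F ∧
      ∀ σ : Γℚ, (∀ x ∈ F, σ x = x) → b σ = 0) →
    (∀ σ ∈ P.inertiaSubgroupIn ℚ, ∀ τ ∈ P.inertiaSubgroupIn ℚ, ∀ a : ℕ,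
      (∀ μ : AlgebraicClosure ℚ, μ ^ p ^ n = 1 → σ μ = μ ^ a) → b (σ * τ) = b σ + a • b τ) →
  ∀ (π₀ ζ : AlgebraicClosure ℚ), π₀ ^ p ^ n = (p : AlgebraicClosure ℚ) →
    IsPrimitiveRoot ζ (p ^ n) →
  ∀ h₀ ∈ peuSubgroup p P, h₀ π₀ = ζ * π₀ →
  ∀ h ∈ peuSubgroup p P, ∀ m : ℕ, h π₀ = ζ ^ m * π₀ → b h = m • b h₀

/-- **FLAT-EXT**: an ordinary, peu ramifiée Galois module is flat.  Let `ρ` over an artinian local
ring `A` with finite residue field (so `A` is finite) have an ordinary line at EVERY place over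
`p`, and let `peuSubgroup p P` act trivially for every `P`.  Then `ρ` is flat at `p`.
[Hopf order by `Lib/HopfOrderLoc` (`Stmt_LocalGen`): coordinates `e_v` (indicator of the class
`v ∈ V/L`) and `t_ξ (s(v) + l) = ξ(l) · w_{ξ,v}` (`ξ` a character of `L`, `w_{ξ,v}` a `p^n`-th
root of a UNIT of the inertia field: the Kummer class of `σ ↦ ξ(σ s(v) - s(v))` is a unit class
because `H₀` acts trivially); `t_ξ(x + y) = γ_{v,v'} t_ξ(x) t_ξ(y)` with units `γ`.] -/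
def Stmt_FLATEXT : Prop :=
  ∀ (p : ℕ) [Fact p.Prime], p ≠ 2 →
  ∀ (A : Type) [CommRing A] [IsLocalRing A] [Finite A] (ρ : GaloisRepAdic A),
    ρ.DetIsCyclotomic p →
    ρ.IsOrdinaryAt p →
    (∀ P : ValuationSubring (AlgebraicClosure ℚ), P.LiesOverPrime p →
      ∀ h ∈ peuSubgroup p P, ρ.ρ h = 1) →
    ρ.IsFlatAt p

/-- **SELMER-p**: passing from the flat to the ordinary deformation ring lets the cotangent
space at a point `x` grow at most by `#(𝒪 / (x(z)² - 1))`, `z` the eigenvalue of an element `g`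
of the decomposition group on the unramified quotient of the universal flat deformation.
[`J₀ ⊂ D'.R` := ideal generated by the coefficients `b(h)`, `h ∈ H₀`, of `D'.ρ(h) = 1 + b(h) E₁₂`.
(1) `D'.ρ mod J₀` is flat (`Stmt_FLATEXT` at every finite level), so `ker τ ⊂ J₀` (universal
properties).  (2) `Stmt_KUMP`: the image of `J₀` in `Φ' / λⁿ` is cyclic, generated by `b(h₀)`;
Krull: the image `B` of `J₀` in `Φ'` is `𝒪 · b(h₀)`.  (3) conjugation by `g`: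
`b(g h₀ g⁻¹) = ε(g) z'(g)⁻² b(h₀)` (matrices) `= ε(g) b(h₀)` (Kummer pairing with `p ∈ ℚ`), so
`(z'(g)² - 1) b(h₀) = 0`; in `Φ'`: `(x(z)² - 1) B = 0`.  (4) `Φ' / (image of ker τ) = Φ`.] -/
def Stmt_SELMERp : Prop :=
  ∀ (𝒪 : Type) [CommRing 𝒪] [IsDomain 𝒪] [IsDiscreteValuationRing 𝒪]
    [IsAdicComplete (maximalIdeal 𝒪) 𝒪] [Finite (ResidueField 𝒪)]
    (p : ℕ) [Fact p.Prime], p ≠ 2 → (p : 𝒪) ∈ maximalIdeal 𝒪 →
    ∀ (ρbar : ResidualGaloisRep (ResidueField 𝒪)) (Smin Sig : Finset ℕ),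
    ρbar.IsAbsolutelyIrreducible → p ∈ Smin → (∀ q' ∈ Smin ∪ Sig, q'.Prime) →
    ∀ (D : GaloisRep.DeformationRingData 𝒪 ρbar (cond 𝒪 p true Smin Sig))
      (D' : GaloisRep.DeformationRingData 𝒪 ρbar (condOrd 𝒪 p Smin Sig))
      (τ : D'.R →ₐ[𝒪] D.R) (hτ : IsLocalHom (τ : D'.R →+* D.R)),
    (D'.ρ.baseChangeAlong (τ : D'.R →+* D.R) hτ).IsEquiv D.ρ →
    ∀ (x : D.R →ₐ[𝒪] 𝒪) (P : ValuationSubring (AlgebraicClosure ℚ)), P.LiesOverPrime p →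
    ∀ (ℒ : OrdLine D.ρ P) (g : Γℚ), g ∈ P.decompositionSubgroup ℚ →
    ∀ z : D.R, ℒ.IsQuotEigen g z → x z ^ 2 - 1 ≠ 0 →
    Finite (RingHom.ker (x : D.R →+* 𝒪)).Cotangent →
    Finite (RingHom.ker ((x.comp τ : D'.R →ₐ[𝒪] 𝒪) : D'.R →+* 𝒪)).Cotangent ∧
      Nat.card (RingHom.ker ((x.comp τ : D'.R →ₐ[𝒪] 𝒪) : D'.R →+* 𝒪)).Cotangent ≤
        Nat.card (RingHom.ker (x : D.R →+* 𝒪)).Cotangent *
          Nat.card (𝒪 ⧸ Ideal.span {x z ^ 2 - 1})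

/-! ## 3. The geometry of the step at `p` -/

/-- The geometric data of the step at `p`: from the state `s` (level `N` prime to `p`) to the
level `N p`; the Hecke algebras are taken away from the SAME set `S ∋ p`.  `c` is the operator
by which `α' ∘ α` acts (to be `unit · (z² - 1)`). -/
structure NMStepP {𝒪 : Type} [CommRing 𝒪] [IsLocalRing 𝒪] (s : NMState 𝒪) (p : ℕ)
    [NeZero (s.N * p)] (c : Module.End 𝒪 s.M.V) : Type 1 where
  /-- restriction of Hecke operators -/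
  rest : CuspForm.heckeAlgebra (s.N * p) 2 (↑s.S : Set ℕ) →+*
    CuspForm.heckeAlgebra s.N 2 (↑s.S : Set ℕ)
  rest_T : ∀ (ℓ : ℕ) (hℓ : ℓ.Prime) (hℓN' : ¬ ℓ ∣ s.N * p)
    (hℓS : ℓ ∉ (↑s.S : Set ℕ)) (hℓN : ¬ ℓ ∣ s.N),
    rest (CuspForm.heckeAlgebra.T hℓ hℓN' hℓS) = CuspForm.heckeAlgebra.T hℓ hℓN hℓS
  /-- the Hecke module at the level `N p`: the part of the localisation on which `U_p` is
  congruent to the unit root -/
  M' : HMod 𝒪 (s.N * p) (↑s.S : Set ℕ) (s.θ.comp rest)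
  /-- the level raising map `x ↦ i₁^* x - i₂^* U⁻¹ x` (`U` = the unit root operator) -/
  α : s.M.V →ₗ[𝒪] M'.V
  /-- its adjoint -/
  α' : M'.V →ₗ[𝒪] s.M.V
  α_η : ∀ (t : CuspForm.heckeAlgebra (s.N * p) 2 (↑s.S : Set ℕ)) (v : s.M.V),
    α (s.M.η (rest t) v) = M'.η t (α v)
  α'_η : ∀ (t : CuspForm.heckeAlgebra (s.N * p) 2 (↑s.S : Set ℕ)) (w : M'.V),
    α' (M'.η t w) = s.M.η (rest t) (α' w)
  /-- Ihara's lemma at `p`: `α` is injective with saturated image -/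
  α_inj : Function.Injective α
  α_sat : ∀ (a : 𝒪) (w : M'.V), a ≠ 0 → a • w ∈ LinearMap.range α → w ∈ LinearMap.range α
  /-- dual Ihara -/
  α'_surj : Function.Surjective α'
  /-- `α' ∘ α = c` -/
  comp : ∀ v : s.M.V, α' (α v) = c v
  /-- multiplicity one: the eigenspaces do not grow -/
  rank : ∀ (x : CuspForm.heckeAlgebra s.N 2 (↑s.S : Set ℕ) →+* 𝒪),
    (∀ t, residue 𝒪 (x t) = s.θ t) →
    Module.finrank 𝒪 (NMState.eigen ⟨s.N * p, s.S, s.θ.comp rest, M'⟩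
      (x.comp rest)) ≤ Module.finrank 𝒪 (s.eigen x)

/-- **NMGEOM2** = `NonMin.Stmt_NMGEOM` with one more clause: at every state `s` of the class `G`
whose level is prime to `p`, for every Hecke–Galois datum `H` over the full local Hecke ring
acting on `s.M` through `ηhat`, every ordinary line `ℒ` of `H.ρ` at a place `P` over `p`, every
Frobenius element `g` at `P` and its eigenvalue `z` on the unramified quotient, there is an
`NMStepP` with `c = ηhat (t (z² - 1))`, `t` a unit of the Hecke ring.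
[Betti: `i₁, i₂ : Γ₀(N p) → Γ₀(N)`; `T_p = i₂_* i₁^*`, `i_j_* i_j^* = p + 1`; LINK (Eichler–Shimura
at `p` on the unramified quotient of the Tate module + `S33.stmt_FlatInf`): `T_p = U + p U⁻¹` on
`s.M`, `U := ηhat z`; `U_p i₁^* = i₁^* T_p - i₂^*`, `U_p i₂^* = p i₁^*`; `α := i₁^* - i₂^* U⁻¹`
satisfies `U_p α = α U`; `M'` := the part of the localisation at level `N p` where `U_p ≡ z`;
pairing `(x, w_{Np} y)` (all `T_ℓ`, `U_p` self-adjoint), `α' := i₂_* - U⁻¹ i₁_*`,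
`α' α = U⁻¹ (U² - 1)(1 - p U⁻²)`; Ihara's lemma for `q = p`.] -/
def Stmt_NMGEOM2 : Prop :=
  ∀ (𝒪 : Type) [CommRing 𝒪] [IsDomain 𝒪] [IsDiscreteValuationRing 𝒪]
    [IsAdicComplete (maximalIdeal 𝒪) 𝒪] [Finite (ResidueField 𝒪)] [CharZero 𝒪]
    (p : ℕ) [Fact p.Prime], p ≠ 2 → (p : 𝒪) ∈ maximalIdeal 𝒪 →
    ∀ (ρbar : ResidualGaloisRep (ResidueField 𝒪)) (Smin : Finset ℕ), ResHyp p ρbar Smin →
    ∀ (N : ℕ) [NeZero N] [Fact (CuspForm.HasIntegralStructure N 2)],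
    (∀ q : ℕ, q.Prime → q ∣ N → q ∈ Smin) → Squarefree N →
    ∀ (θ : CuspForm.heckeAlgebra N 2 (↑Smin : Set ℕ) →+* ResidueField 𝒪),
    Fermat.Agent.S59.Datum.FrobHyp ρbar N Smin θ →
    ∃ (M : HMod 𝒪 N (↑Smin : Set ℕ) θ) (G : NMState 𝒪 → Prop), Nontrivial M.V ∧
      (∀ (r n : ℕ) (qv : Fin r → ℕ), Fermat.Agent.S56.IsTWFamily ρbar p n Smin qv →
        ∀ [NeZero (twLevel N qv)] [Fact (CuspForm.HasIntegralStructure (twLevel N qv) 2)],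
          Nonempty (TWGeom 𝒪 p ρbar N Smin θ M n qv)) ∧
      G ⟨N, Smin, θ, M⟩ ∧
      (∀ s : NMState 𝒪, G s → ∀ (q : ℕ) (hq : q.Prime), q ≠ p → ∀ (hqN : ¬ q ∣ s.N)
        (hqS : q ∉ (↑s.S : Set ℕ)) [NeZero (s.N * q ^ 2)],
        ∃ st : NMStep s hq hqN hqS, G st.next) ∧
      (∀ s : NMState 𝒪, G s → ¬ p ∣ s.N → p ∈ s.S →
        ∀ [NeZero (s.N * p)] [Fact (CuspForm.HasIntegralStructure s.N 2)]
          (H : CuspForm.HeckeGaloisRepDatum s.N (↑s.S : Set ℕ) 𝒪 s.θ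
            (CuspForm.heckeLocal s.N (↑s.S : Set ℕ) 𝒪 s.θ))
          (ηhat : CuspForm.heckeLocal s.N (↑s.S : Set ℕ) 𝒪 s.θ →ₐ[𝒪] Module.End 𝒪 s.M.V),
          H.π = CuspForm.heckeLocal.π s.N (↑s.S : Set ℕ) 𝒪 s.θ →
          (∀ t, ηhat (CuspForm.heckeLocal.π s.N (↑s.S : Set ℕ) 𝒪 s.θ t) = s.M.η t) →
          H.ρ.DetIsCyclotomic p →
          H.ρ.residual.IsEquiv (ρbar.baseChangeAlong
            (ResidueField.map (algebraMap 𝒪 (CuspForm.heckeLocal s.N (↑s.S : Set ℕ) 𝒪 s.θ)))) →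
          ∀ (P : ValuationSubring (AlgebraicClosure ℚ)), P.LiesOverPrime p →
          ∀ (ℒ : OrdLine H.ρ P) (g : Γℚ), P.IsFrobeniusAt g p →
          ∀ z : CuspForm.heckeLocal s.N (↑s.S : Set ℕ) 𝒪 s.θ, ℒ.IsQuotEigen g z →
          ∃ t : CuspForm.heckeLocal s.N (↑s.S : Set ℕ) 𝒪 s.θ, IsUnit t ∧
            Nonempty (NMStepP s p (ηhat (t * (z ^ 2 - 1)))))

/-- `NMGEOM2` contains `NMGEOM`. -/
theorem nmgeom_of_nmgeom2 (h : Stmt_NMGEOM2) : Stmt_NMGEOM := by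
  intro 𝒪 _ _ _ _ _ _ p _ hp2 hp𝒪 ρbar Smin hyp N _ _ hN hsq θ hθ
  obtain ⟨M, G, h1, h2, h3, h4, -⟩ := h 𝒪 p hp2 hp𝒪 ρbar Smin hyp N hN hsq θ hθ
  exact ⟨M, G, h1, h2, h3, h4⟩

/-- **CP-NE**: the constant of the step at `p` does not vanish at a characteristic zero point:
the eigenvalue of a Frobenius element at `p` on the unramified quotient is not `± 1`.
[LINK at the point: `a_p(f) = u + p / u`; `u = ± 1` would give `a_p(f) = ± (p + 1)`, against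
`|a_p(f)| < p + 1` (`NonMin.Stmt_CQNE` for the Hecke algebra away from `S ∖ {p}`).] -/
def Stmt_CPNE : Prop :=
  ∀ (𝒪 : Type) [CommRing 𝒪] [IsDomain 𝒪] [IsDiscreteValuationRing 𝒪]
    [IsAdicComplete (maximalIdeal 𝒪) 𝒪] [Finite (ResidueField 𝒪)] [CharZero 𝒪]
    (p : ℕ) [Fact p.Prime], p ≠ 2 → (p : 𝒪) ∈ maximalIdeal 𝒪 →
    ∀ (N : ℕ) [NeZero N] [Fact (CuspForm.HasIntegralStructure N 2)] (S : Finset ℕ), p ∈ S →
    (∀ q : ℕ, q.Prime → q ∣ N → q ∈ S) → ¬ p ∣ N →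
    ∀ (θ : CuspForm.heckeAlgebra N 2 (↑S : Set ℕ) →+* ResidueField 𝒪)
      (H : CuspForm.HeckeGaloisRepDatum N (↑S : Set ℕ) 𝒪 θ
        (CuspForm.heckeLocal N (↑S : Set ℕ) 𝒪 θ)),
    H.π = CuspForm.heckeLocal.π N (↑S : Set ℕ) 𝒪 θ →
    H.ρ.DetIsCyclotomic p → H.ρ.residual.IsAbsolutelyIrreducible →
    ∀ (P : ValuationSubring (AlgebraicClosure ℚ)), P.LiesOverPrime p →
    ∀ (ℒ : OrdLine H.ρ P) (g : Γℚ), P.IsFrobeniusAt g p →
    ∀ z : CuspForm.heckeLocal N (↑S : Set ℕ) 𝒪 θ, ℒ.IsQuotEigen g z →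
    ∀ πx : CuspForm.heckeLocal N (↑S : Set ℕ) 𝒪 θ →ₐ[𝒪] 𝒪, πx z ^ 2 - 1 ≠ 0

/-! ## 4. The step and the target -/

/-- The frozen type of S33 (row 32), as a hypothesis for the wiring. -/
def Stmt_S33 : Prop :=
  ∀ {p : ℕ} {N : ℕ} [NeZero N] {S : Finset ℕ}
    {𝒪 : Type} [CommRing 𝒪] [IsDomain 𝒪] [IsDiscreteValuationRing 𝒪]
    [IsAdicComplete (IsLocalRing.maximalIdeal 𝒪) 𝒪]
    {θ : CuspForm.heckeAlgebra N 2 (↑S : Set ℕ) →+* IsLocalRing.ResidueField 𝒪}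
    {T : Type} [CommRing T] [IsLocalRing T] [IsNoetherianRing T]
    [IsAdicComplete (IsLocalRing.maximalIdeal T) T] [Algebra 𝒪 T] [IsLocalHom (algebraMap 𝒪 T)]
    [Module.Finite 𝒪 T] [Module.Free 𝒪 T]
    [Finite (IsLocalRing.ResidueField 𝒪)] [CharZero 𝒪]
    (_hp : p.Prime) (_hp2 : p ≠ 2) (_hp𝒪 : (p : 𝒪) ∈ IsLocalRing.maximalIdeal 𝒪)
    (_hN : p ∣ N ∧ ¬ p ^ 2 ∣ N)
    (_hNS : ∀ q : ℕ, q.Prime → q ∣ N → q ∈ S)
    (H : CuspForm.HeckeGaloisRepDatum N (↑S : Set ℕ) 𝒪 θ T)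
    (_hres : (GaloisRepAdic.ofResidualGaloisRep H.ρ.residual).IsOrdinaryAt p),
    H.ρ.IsOrdinaryAt p


/-- **STEP-p**: from `R = T` at a state of level prime to `p` (flat condition) to modularity of
every ORDINARY lift.
[As `NonMin.Stmt_STEP` (plan §3 of `S59_NONMIN.md`) with `D'` from `Stmt_DEFord`, the datum `H'`
at level `N p` (`Datum.stmt_DATUM`), `condOrd … H'.ρ` from `S31.result`, `S34.result`,
`S33.result`; `φ'` from `S54.result`; `τ` from `Stmt_ORDT` + `Stmt_TAUP` (`D.ρ` is ordinary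
because `φ` is bijective and `H.ρ` is ordinary); `z ∈ T`, `z_D := φ⁻¹ z`; the Selmer bound
`Stmt_SELMERp`; the growth `NumCrit.H90.card_omega_growth` with `c := t (z² - 1)`;
`NumCrit.nc1_diamond`; finally `eigenform_of_RT`.] -/
def Stmt_STEPP : Prop :=
  ∀ (𝒪 : Type) [CommRing 𝒪] [IsDomain 𝒪] [IsDiscreteValuationRing 𝒪]
    [IsAdicComplete (maximalIdeal 𝒪) 𝒪] [Finite (ResidueField 𝒪)] [CharZero 𝒪]
    (p : ℕ) [Fact p.Prime], p ≠ 2 → (p : 𝒪) ∈ maximalIdeal 𝒪 →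
    ∀ (ρbar : ResidualGaloisRep (ResidueField 𝒪)) (Smin : Finset ℕ),
    ResHyp p ρbar Smin →
    cond 𝒪 p true Smin ∅ (GaloisRepAdic.ofResidualGaloisRep ρbar) →
    (GaloisRepAdic.ofResidualGaloisRep ρbar).IsOrdinaryAt p →
    ∀ (Sig : Finset ℕ) (s : NMState 𝒪) [Fact (CuspForm.HasIntegralStructure s.N 2)],
    LevelHyp 𝒪 p true Smin Sig s →
    Fermat.Agent.S59.Datum.FrobHyp ρbar s.N s.S s.θ →
    ∀ (x : CuspForm.heckeAlgebra s.N 2 (↑s.S : Set ℕ) →+* 𝒪),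
    (∀ t, residue 𝒪 (x t) = s.θ t) →
    ∀ (d : ℕ), 0 < d → RTProp 𝒪 p true ρbar Smin Sig s x d →
    ∀ [NeZero (s.N * p)] [Fact (CuspForm.HasIntegralStructure (s.N * p) 2)],
    (∀ (H : CuspForm.HeckeGaloisRepDatum s.N (↑s.S : Set ℕ) 𝒪 s.θ
          (CuspForm.heckeLocal s.N (↑s.S : Set ℕ) 𝒪 s.θ))
        (ηhat : CuspForm.heckeLocal s.N (↑s.S : Set ℕ) 𝒪 s.θ →ₐ[𝒪] Module.End 𝒪 s.M.V),
        H.π = CuspForm.heckeLocal.π s.N (↑s.S : Set ℕ) 𝒪 s.θ →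
        (∀ t, ηhat (CuspForm.heckeLocal.π s.N (↑s.S : Set ℕ) 𝒪 s.θ t) = s.M.η t) →
        H.ρ.DetIsCyclotomic p →
        H.ρ.residual.IsEquiv (ρbar.baseChangeAlong
          (ResidueField.map (algebraMap 𝒪 (CuspForm.heckeLocal s.N (↑s.S : Set ℕ) 𝒪 s.θ)))) →
        ∀ (P : ValuationSubring (AlgebraicClosure ℚ)), P.LiesOverPrime p →
        ∀ (ℒ : OrdLine H.ρ P) (g : Γℚ), P.IsFrobeniusAt g p →
        ∀ z : CuspForm.heckeLocal s.N (↑s.S : Set ℕ) 𝒪 s.θ, ℒ.IsQuotEigen g z →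
        ∃ t : CuspForm.heckeLocal s.N (↑s.S : Set ℕ) 𝒪 s.θ, IsUnit t ∧
          Nonempty (NMStepP s p (ηhat (t * (z ^ 2 - 1))))) →
    ∀ (ρ : GaloisRepAdic 𝒪), condOrd 𝒪 p Smin Sig ρ →
    ρ.residual.IsEquiv (ρbar.baseChangeAlong (ResidueField.map (algebraMap 𝒪 𝒪))) →
    ∀ (a : ℕ → ℤ),
    (∀ ℓ : ℕ, ℓ.Prime → ℓ ∉ Smin ∪ Sig →
      ∀ A : ValuationSubring (AlgebraicClosure ℚ), A.LiesOverPrime ℓ →
        ∀ σ : Γℚ, A.IsFrobeniusAt σ ℓ →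
          LinearMap.charpoly (ρ.ρ σ) = X ^ 2 - C (((a ℓ : ℤ) : 𝒪)) * X + C ((ℓ : 𝒪))) →
    ∃ g : CuspForm (Gamma0 (s.N * p)) 2, g.IsNormalizedEigenform ∧
      ∀ ℓ : ℕ, ℓ.Prime → ¬ ℓ ∣ s.N * p → ℓ ∉ Smin ∪ Sig → qCoeff ⇑g ℓ = (a ℓ : ℂ)

/-- The wiring of the step at `p` from its leaves (`Datum.stmt_DATUM`, `S31.result`,
`S34.result`, `S54.result`, `Asm.H85.stmt_LOCMOD`, `Asm.H85.stmt_RESLOC`, `Asm.H57.stmt_COMPAT`,
`NonMin.H92.stmt_ETANE`, `NonMin.H92.stmt_PRES`, `NumCrit.nc1_diamond`,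
`NumCrit.H90.card_omega_growth` are landed theorems). -/
def Stmt_STEPPWIRE : Prop :=
  Stmt_S33 → Stmt_DEFord → Stmt_ORDT → Stmt_TAUP → Stmt_SELMERp → Stmt_CPNE → Stmt_STEPP

/-- **RT-ALL**: the output of the induction of RT-NONMIN, as a statement about states: for every
`Sig` there is a state of the class `G` with `LevelHyp` and `RTProp` (the proof of
`NonMin.Stmt_MLTnm` passes through it). -/
def Stmt_RTALL : Prop :=
  ∀ (𝒪 : Type) [CommRing 𝒪] [IsDomain 𝒪] [IsDiscreteValuationRing 𝒪]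
    [IsAdicComplete (maximalIdeal 𝒪) 𝒪] [Finite (ResidueField 𝒪)] [CharZero 𝒪]
    (p : ℕ) [Fact p.Prime], p ≠ 2 → (p : 𝒪) ∈ maximalIdeal 𝒪 →
    ∀ (fl : Bool) (ρbar : ResidualGaloisRep (ResidueField 𝒪)) (Smin : Finset ℕ),
    ResHyp p ρbar Smin →
    cond 𝒪 p fl Smin ∅ (GaloisRepAdic.ofResidualGaloisRep ρbar) →
    (fl = false → ¬ (GaloisRepAdic.ofResidualGaloisRep ρbar).IsFlatAt p) →
    ∀ (N : ℕ) [NeZero N], N = minLevel p fl Smin →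
    ∀ (θ : CuspForm.heckeAlgebra N 2 (↑Smin : Set ℕ) →+* ResidueField 𝒪),
    Fermat.Agent.S59.Datum.FrobHyp ρbar N Smin θ →
    ∀ (x₀ : CuspForm.heckeAlgebra N 2 (↑Smin : Set ℕ) →+* 𝒪),
    (∀ t, residue 𝒪 (x₀ t) = θ t) →
    ∀ (G : NMState 𝒪 → Prop) (M : HMod 𝒪 N (↑Smin : Set ℕ) θ), Nontrivial M.V →
      (∀ (r n : ℕ) (qv : Fin r → ℕ), Fermat.Agent.S56.IsTWFamily ρbar p n Smin qv →
        ∀ [NeZero (twLevel N qv)] [Fact (CuspForm.HasIntegralStructure (twLevel N qv) 2)],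
          Nonempty (TWGeom 𝒪 p ρbar N Smin θ M n qv)) →
      G ⟨N, Smin, θ, M⟩ →
      (∀ s : NMState 𝒪, G s → ∀ (q : ℕ) (hq : q.Prime), q ≠ p → ∀ (hqN : ¬ q ∣ s.N)
        (hqS : q ∉ (↑s.S : Set ℕ)) [NeZero (s.N * q ^ 2)],
        ∃ st : NMStep s hq hqN hqS, G st.next) →
    ∀ (Sig : Finset ℕ), (∀ q ∈ Sig, q.Prime ∧ q ∉ Smin) →
    ∃ (s : NMState 𝒪) (_ : Fact (CuspForm.HasIntegralStructure s.N 2))
      (x : CuspForm.heckeAlgebra s.N 2 (↑s.S : Set ℕ) →+* 𝒪) (d : ℕ),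
      G s ∧ LevelHyp 𝒪 p fl Smin Sig s ∧
      Fermat.Agent.S59.Datum.FrobHyp ρbar s.N s.S s.θ ∧
      (∀ t, residue 𝒪 (x t) = s.θ t) ∧ 0 < d ∧ RTProp 𝒪 p fl ρbar Smin Sig s x d

/-- **Modularity lifting, case C** (with a point `x₀` of the minimal Hecke ring, as in
`NonMin.Stmt_MLTnm`): `ρbar` flat and ordinary, `ρ` ordinary. -/
def Stmt_MLTc : Prop :=
  ∀ (𝒪 : Type) [CommRing 𝒪] [IsDomain 𝒪] [IsDiscreteValuationRing 𝒪]
    [IsAdicComplete (maximalIdeal 𝒪) 𝒪] [Finite (ResidueField 𝒪)] [CharZero 𝒪]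
    (p : ℕ) [Fact p.Prime], p ≠ 2 → (p : 𝒪) ∈ maximalIdeal 𝒪 →
    ∀ (ρbar : ResidualGaloisRep (ResidueField 𝒪)) (Smin : Finset ℕ),
    ResHyp p ρbar Smin →
    cond 𝒪 p true Smin ∅ (GaloisRepAdic.ofResidualGaloisRep ρbar) →
    (GaloisRepAdic.ofResidualGaloisRep ρbar).IsOrdinaryAt p →
    ∀ (N : ℕ) [NeZero N], N = minLevel p true Smin →
    ∀ (θ : CuspForm.heckeAlgebra N 2 (↑Smin : Set ℕ) →+* ResidueField 𝒪),
    Fermat.Agent.S59.Datum.FrobHyp ρbar N Smin θ →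
    ∀ (x₀ : CuspForm.heckeAlgebra N 2 (↑Smin : Set ℕ) →+* 𝒪),
    (∀ t, residue 𝒪 (x₀ t) = θ t) →
    ∀ (Sig : Finset ℕ), (∀ q ∈ Sig, q.Prime ∧ q ∉ Smin) →
    ∀ (ρ : GaloisRepAdic 𝒪), condOrd 𝒪 p Smin Sig ρ →
    ρ.residual.IsEquiv (ρbar.baseChangeAlong (ResidueField.map (algebraMap 𝒪 𝒪))) →
    ∀ (a : ℕ → ℤ),
    (∀ ℓ : ℕ, ℓ.Prime → ℓ ∉ Smin ∪ Sig →
      ∀ A : ValuationSubring (AlgebraicClosure ℚ), A.LiesOverPrime ℓ →
        ∀ σ : Γℚ, A.IsFrobeniusAt σ ℓ →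
          LinearMap.charpoly (ρ.ρ σ) = X ^ 2 - C (((a ℓ : ℤ) : 𝒪)) * X + C ((ℓ : 𝒪))) →
    ∃ N' : ℕ, ¬ p ^ 2 ∣ N' ∧ (∀ q : ℕ, q.Prime → ¬ q ^ 3 ∣ N') ∧
      ∃ g : CuspForm (Gamma0 N') 2, g.IsNormalizedEigenform ∧
        ∀ ℓ : ℕ, ℓ.Prime → ¬ ℓ ∣ N' → ℓ ∉ Smin ∪ Sig → qCoeff ⇑g ℓ = (a ℓ : ℂ)

/-- Wiring of case C: geometry + the induction of RT-NONMIN + the step at `p`. -/
def Stmt_CWIRE : Prop :=
  Stmt_NMGEOM2 → Stmt_RTALL → Stmt_STEPP → Stmt_MLTc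

/-- **AUG**: a characteristic zero point of the minimal Hecke ring exists after a finite
extension of the coefficient ring, and all hypotheses of `Asm.Stmt_MLTgen` survive the extension
(`NOTES/plan/S59_NONMIN.md` §9; as `S59/H99_Split.lean`).  Stated as the reduction of
`Asm.Stmt_MLTgen` to its version with a point `x₀`. -/
def Stmt_MLTgenPt : Prop :=
  ∀ (𝒪 : Type) [CommRing 𝒪] [IsDomain 𝒪] [IsDiscreteValuationRing 𝒪]
    [IsAdicComplete (maximalIdeal 𝒪) 𝒪] [Finite (ResidueField 𝒪)] [CharZero 𝒪]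
    (p : ℕ) [Fact p.Prime], p ≠ 2 → (p : 𝒪) ∈ maximalIdeal 𝒪 →
    ∀ (fl : Bool) (ρbar : ResidualGaloisRep (ResidueField 𝒪)) (Smin : Finset ℕ),
    ResHyp p ρbar Smin →
    cond 𝒪 p fl Smin ∅ (GaloisRepAdic.ofResidualGaloisRep ρbar) →
    (fl = false → ¬ (GaloisRepAdic.ofResidualGaloisRep ρbar).IsFlatAt p) →
    ∀ (N : ℕ) [NeZero N], N = minLevel p fl Smin →
    ∀ (θ : CuspForm.heckeAlgebra N 2 (↑Smin : Set ℕ) →+* ResidueField 𝒪),
    Fermat.Agent.S59.Datum.FrobHyp ρbar N Smin θ →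
    ∀ (x₀ : CuspForm.heckeAlgebra N 2 (↑Smin : Set ℕ) →+* 𝒪),
    (∀ t, residue 𝒪 (x₀ t) = θ t) →
    ∀ (Sig : Finset ℕ), (∀ q ∈ Sig, q.Prime ∧ q ∉ Smin) →
    ∀ (ρ : GaloisRepAdic 𝒪), ρ.DetIsCyclotomic p →
    (∀ q : ℕ, q.Prime → q ∉ Smin → q ∉ Sig → ρ.IsUnramifiedAt q) →
    (∀ q ∈ Smin, q ≠ p → ρ.IsUnipotentOnInertiaAt q) →
    (∀ q ∈ Sig, ρ.IsUnipotentOnInertiaAt q) →
    (ρ.IsFlatAt p ∨ ρ.IsStrictOrdinaryAt p) →
    ρ.residual.IsEquiv (ρbar.baseChangeAlong (ResidueField.map (algebraMap 𝒪 𝒪))) →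
    ∀ (a : ℕ → ℤ),
    (∀ ℓ : ℕ, ℓ.Prime → ℓ ∉ Smin → ℓ ∉ Sig →
      ∀ A : ValuationSubring (AlgebraicClosure ℚ), A.LiesOverPrime ℓ →
        ∀ σ : Γℚ, A.IsFrobeniusAt σ ℓ →
          LinearMap.charpoly (ρ.ρ σ) = X ^ 2 - C (((a ℓ : ℤ) : 𝒪)) * X + C ((ℓ : 𝒪))) →
    ∃ N' : ℕ, ¬ p ^ 2 ∣ N' ∧ (∀ q : ℕ, q.Prime → ¬ q ^ 3 ∣ N') ∧
      ∃ g : CuspForm (Gamma0 N') 2, g.IsNormalizedEigenform ∧
        ∀ ℓ : ℕ, ℓ.Prime → ℓ ∉ Smin → ℓ ∉ Sig → ¬ ℓ ∣ N' → qCoeff ⇑g ℓ = (a ℓ : ℂ)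

/-- Wiring: the three cases.  [`ρ` flat: then `fl = true` (else `ρbar` would be flat:
`Datum.H78.stmt_FlatDesc`) and `NonMin.Stmt_MLTnm`; `ρ` strictly ordinary and `fl = false`:
`NonMin.Stmt_MLTnm`; `ρ` strictly ordinary and `fl = true`: `ρbar` is ordinary (reduction) and
`Stmt_MLTc` with `condOrd_of_condSO`.] -/
def Stmt_GENPTWIRE : Prop :=
  Fermat.Agent.S59.NonMin.Stmt_MLTnm → Stmt_MLTc → Stmt_MLTgenPt

/-- Wiring: AUG. -/
def Stmt_AUGWIRE : Prop :=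
  Stmt_MLTgenPt → Fermat.Agent.S59.Asm.Stmt_MLTgen

end Fermat.Agent.S59.CaseC
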