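import Mathlib
import Fermat.Agent.S59.CaseC.Defs
import Fermat.Agent.S59.NonMin.H47_OrdLine

/-!
# S59, case C, the step at `p` (helper47), part 1: ordinary lines with an eigenvalue

* `IsOrdLineEig ρ P g z L` : `L` is an ordinary line of `ρ` at `P` and `ρ(g) ≡ z` modulo `L`.
* `exists_eigen`          : every element of the decomposition group has an eigenvalue on the
                            quotient by an ordinary line.
* `isOrdLineEig_of_isEquiv`, `isOrdLineEig_baseChangeAlong` : transport along equivalences and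
                            base changes (the eigenvalue becomes `φ z`).
* `exists_ordLine`        : the structure `CaseC.OrdLine` with `IsQuotEigen`.
-/

set_option autoImplicit false
set_option linter.unusedSectionVars false
set_option linter.style.haveILetI false
set_option linter.unusedVariables false

open IsLocalRing TensorProduct

namespace Fermat.Agent.S59.CaseC.H47

open Fermat.Agent.S59.H99 Fermat.Agent.S56.H92 Fermat.Agent.S59.NonMin.H47

variable {A : Type} [CommRing A] [IsLocalRing A]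

/-- `L` is an ordinary line of `ρ` at `P`, and `g` acts on the quotient by `z`. -/
def IsOrdLineEig (ρ : GaloisRepAdic A) (P : ValuationSubring (AlgebraicClosure ℚ))
    (g : AlgebraicClosure ℚ ≃ₐ[ℚ] AlgebraicClosure ℚ) (z : A) (L : Submodule A ρ.V) : Prop :=
  IsOrdLineAt ρ P L ∧ ∀ v : ρ.V, ρ.ρ g v - z • v ∈ L

/-- from the structure to the predicate -/
theorem isOrdLineEig_of_ordLine {ρ : GaloisRepAdic A}
    {P : ValuationSubring (AlgebraicClosure ℚ)} (ℒ : OrdLine ρ P)
    {g : AlgebraicClosure ℚ ≃ₐ[ℚ] AlgebraicClosure ℚ} {z : A} (h : ℒ.IsQuotEigen g z) :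
    IsOrdLineEig ρ P g z ℒ.L :=
  ⟨⟨ℒ.isLine, ℒ.stable, ℒ.inertia⟩, h⟩

/-- from the predicate to the structure -/
theorem exists_ordLine {ρ : GaloisRepAdic A}
    {P : ValuationSubring (AlgebraicClosure ℚ)}
    {g : AlgebraicClosure ℚ ≃ₐ[ℚ] AlgebraicClosure ℚ} {z : A} {L : Submodule A ρ.V}
    (h : IsOrdLineEig ρ P g z L) : ∃ ℒ : OrdLine ρ P, ℒ.IsQuotEigen g z :=
  ⟨⟨L, h.1.1, h.1.2.1, h.1.2.2⟩, h.2⟩

/-- a vector whose second coordinate vanishes is on the line of the first basis vector -/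
theorem mem_span_of_repr_one_eq_zero {V : Type} [AddCommGroup V] [Module A V]
    (b : Module.Basis (Fin 2) A V) {v : V} (hv : b.repr v 1 = 0) :
    v ∈ Submodule.span A {b 0} := by
  have h1 := b.sum_repr v
  rw [Fin.sum_univ_two, hv, zero_smul, add_zero] at h1
  rw [← h1]
  exact Submodule.smul_mem _ _ (Submodule.mem_span_singleton_self _)

/-- **The eigenvalue on the quotient**: an element of the decomposition group acts on the
quotient by an ordinary line through a scalar. -/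
theorem exists_eigen {ρ : GaloisRepAdic A} {P : ValuationSubring (AlgebraicClosure ℚ)}
    {L : Submodule A ρ.V} (hL : IsOrdLineAt ρ P L)
    (g : AlgebraicClosure ℚ ≃ₐ[ℚ] AlgebraicClosure ℚ) (hg : g ∈ P.decompositionSubgroup ℚ) :
    ∃ z : A, IsOrdLineEig ρ P g z L := by
  obtain ⟨⟨b, rfl⟩, hstab, hin⟩ := hL
  refine ⟨b.repr (ρ.ρ g (b 1)) 1, ⟨⟨b, rfl⟩, hstab, hin⟩, fun v => ?_⟩
  apply mem_span_of_repr_one_eq_zero
  have hb0 : b.repr (ρ.ρ g (b 0)) 1 = 0 :=
    repr_one_eq_zero_of_mem_span b (hstab g hg (b 0) (Submodule.mem_span_singleton_self _))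
  have hv := b.sum_repr v
  rw [Fin.sum_univ_two] at hv
  have h1 : ρ.ρ g v = b.repr v 0 • ρ.ρ g (b 0) + b.repr v 1 • ρ.ρ g (b 1) := by
    conv_lhs => rw [← hv]
    rw [map_add, map_smul, map_smul]
  rw [map_sub, Finsupp.sub_apply, map_smul, Finsupp.smul_apply, h1, map_add, Finsupp.add_apply,
    map_smul, map_smul, Finsupp.smul_apply, Finsupp.smul_apply, hb0, smul_zero, zero_add,
    smul_eq_mul, smul_eq_mul, mul_comm, sub_self]

section Equiv

variable {ρ ρ' : GaloisRepAdic A}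

/-- transport along an equivalence -/
theorem isOrdLineEig_of_isEquiv (e : GaloisRepAdic.Equiv ρ ρ')
    {P : ValuationSubring (AlgebraicClosure ℚ)}
    {g : AlgebraicClosure ℚ ≃ₐ[ℚ] AlgebraicClosure ℚ} {z : A} {L : Submodule A ρ.V}
    (h : IsOrdLineEig ρ P g z L) :
    IsOrdLineEig ρ' P g z (L.map (e.toLinearEquiv : ρ.V →ₗ[A] ρ'.V)) := by
  obtain ⟨⟨⟨b, hb⟩, hD, hI⟩, hz⟩ := h
  refine ⟨⟨⟨b.map e.toLinearEquiv, ?_⟩, ?_, ?_⟩, ?_⟩
  · rw [hb, Submodule.map_span, Set.image_singleton]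
    rfl
  · intro σ hσ v hv
    obtain ⟨w, hw, rfl⟩ := hv
    refine ⟨ρ.ρ σ w, hD σ hσ w hw, ?_⟩
    exact e.map_apply σ w
  · intro σ hσ v
    obtain ⟨w, rfl⟩ := e.toLinearEquiv.surjective v
    refine ⟨ρ.ρ σ w - w, hI σ hσ w, ?_⟩
    change e.toLinearEquiv (ρ.ρ σ w - w) = _
    rw [map_sub, e.map_apply]
  · intro v
    obtain ⟨w, rfl⟩ := e.toLinearEquiv.surjective v
    refine ⟨ρ.ρ g w - z • w, hz w, ?_⟩
    change e.toLinearEquiv (ρ.ρ g w - z • w) = _
    rw [map_sub, e.map_apply, map_smul]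

end Equiv

section BaseChange

variable {B : Type} [CommRing B] [IsLocalRing B]

/-- Core of the base change, stated on `B ⊗[A] V` directly. -/
theorem ordEig_core (φ : A →+* B) (ρ : GaloisRepAdic A)
    (P : ValuationSubring (AlgebraicClosure ℚ))
    (g : AlgebraicClosure ℚ ≃ₐ[ℚ] AlgebraicClosure ℚ) (z : A)
    (h : ∃ L : Submodule A ρ.V,
      ((∃ b : Module.Basis (Fin 2) A ρ.V, L = Submodule.span A {b 0}) ∧
      (∀ σ ∈ P.decompositionSubgroup ℚ, ∀ v ∈ L, ρ.ρ σ v ∈ L) ∧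
      (∀ σ ∈ P.inertiaSubgroupIn ℚ, ∀ v : ρ.V, ρ.ρ σ v - v ∈ L)) ∧
      ∀ v : ρ.V, ρ.ρ g v - z • v ∈ L) :
    letI : Algebra A B := φ.toAlgebra
    ∃ L : Submodule B (B ⊗[A] ρ.V),
      ((∃ b : Module.Basis (Fin 2) B (B ⊗[A] ρ.V), L = Submodule.span B {b 0}) ∧
      (∀ σ ∈ P.decompositionSubgroup ℚ, ∀ v ∈ L, (ρ.ρ σ).baseChange B v ∈ L) ∧
      (∀ σ ∈ P.inertiaSubgroupIn ℚ, ∀ v : B ⊗[A] ρ.V, (ρ.ρ σ).baseChange B v - v ∈ L)) ∧
      ∀ v : B ⊗[A] ρ.V, (ρ.ρ g).baseChange B v - φ z • v ∈ L := by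
  letI : Algebra A B := φ.toAlgebra
  obtain ⟨L, ⟨⟨b, hb⟩, hD, hI⟩, hz⟩ := h
  have hb0 : b 0 ∈ L := by rw [hb]; exact Submodule.mem_span_singleton_self _
  refine ⟨Submodule.span B {(1 : B) ⊗ₜ[A] b 0}, ⟨⟨b.baseChange B, ?_⟩, ?_, ?_⟩, ?_⟩
  · rw [Module.Basis.baseChange_apply]
  · intro σ hσ v hv
    obtain ⟨c, rfl⟩ := Submodule.mem_span_singleton.1 hv
    rw [map_smul, LinearMap.baseChange_tmul]
    refine Submodule.smul_mem _ _ ?_
    have := hD σ hσ (b 0) hb0
    rw [hb] at this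
    exact tmul_mem_span φ 1 this
  · intro σ hσ v
    induction v using TensorProduct.induction_on with
    | zero => rw [LinearMap.map_zero, sub_zero]; exact Submodule.zero_mem _
    | tmul c v =>
      rw [LinearMap.baseChange_tmul, ← TensorProduct.tmul_sub]
      have := hI σ hσ v
      rw [hb] at this
      exact tmul_mem_span φ c this
    | add x y hx hy =>
      rw [map_add, add_sub_add_comm]
      exact Submodule.add_mem _ hx hy
  · intro v
    induction v using TensorProduct.induction_on with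
    | zero => rw [LinearMap.map_zero, smul_zero, sub_zero]; exact Submodule.zero_mem _
    | tmul c v =>
      have h1 : φ z • (c ⊗ₜ[A] v : B ⊗[A] ρ.V) = c ⊗ₜ[A] (z • v) := by
        rw [TensorProduct.smul_tmul', TensorProduct.tmul_smul, TensorProduct.smul_tmul']
        congr 1
      rw [LinearMap.baseChange_tmul, h1, ← TensorProduct.tmul_sub]
      have := hz v
      rw [hb] at this
      exact tmul_mem_span φ c this
    | add x y hx hy =>
      rw [map_add, smul_add, add_sub_add_comm]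
      exact Submodule.add_mem _ hx hy

/-- transport along a base change: the eigenvalue becomes `φ z` -/
theorem exists_isOrdLineEig_baseChangeAlong (φ : A →+* B) (hφ : IsLocalHom φ)
    (ρ : GaloisRepAdic A) {P : ValuationSubring (AlgebraicClosure ℚ)}
    {g : AlgebraicClosure ℚ ≃ₐ[ℚ] AlgebraicClosure ℚ} {z : A} {L : Submodule A ρ.V}
    (h : IsOrdLineEig ρ P g z L) :
    ∃ L' : Submodule B (ρ.baseChangeAlong φ hφ).V,
      IsOrdLineEig (ρ.baseChangeAlong φ hφ) P g (φ z) L' :=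
  ordEig_core φ ρ P g z ⟨L, h⟩

/-- transport along a base change followed by an equivalence -/
theorem exists_isOrdLineEig_of_baseChange_isEquiv (φ : A →+* B) (hφ : IsLocalHom φ)
    (ρ : GaloisRepAdic A) (ρ' : GaloisRepAdic B)
    (he : (ρ.baseChangeAlong φ hφ).IsEquiv ρ')
    {P : ValuationSubring (AlgebraicClosure ℚ)}
    {g : AlgebraicClosure ℚ ≃ₐ[ℚ] AlgebraicClosure ℚ} {z : A} {L : Submodule A ρ.V}
    (h : IsOrdLineEig ρ P g z L) :
    ∃ L' : Submodule B ρ'.V, IsOrdLineEig ρ' P g (φ z) L' := by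
  obtain ⟨e⟩ := he
  obtain ⟨L₁, hL₁⟩ := exists_isOrdLineEig_baseChangeAlong φ hφ ρ h
  exact ⟨_, isOrdLineEig_of_isEquiv e hL₁⟩

end BaseChange

end Fermat.Agent.S59.CaseC.H47
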