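import Mathlib
import Fermat.Agent.S59.CaseC.H47_StepPLine
import Fermat.Agent.S59.NonMin.H90_StepAux
import Fermat.Agent.S59.NonMin.H2_ResOrd
import Fermat.Agent.S59.Datum.H7_Asm
import Fermat.Agent.S59.Datum.H57_ResEq

/-!
# S59, case C, the step at `p` (helper47), part 2: auxiliary lemmas

* `residual_isEquiv_of_datum` : the residual representation of a Hecke–Galois datum is `ρbar`
                                (from `FrobHyp`, `Datum.H57.stmt_ResEq`).
* `isOrdinaryAt_of_bijective` : descent of ordinarity along a bijective classifying map.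
* `ofResidual_isOrdinaryAt_of_residual_isEquiv` : a representation with residual representation
                                `ρbar` (ordinary) is residually ordinary.
* `eigen_eq_torsP`            : the eigenspace of a state is the `𝔭`-torsion of the module over
                                the local Hecke ring.
* `card_quot_span_unit_mul`   : `#(𝒪/(u a)) = #(𝒪/(a))` for a unit `u`.
-/

set_option autoImplicit false
set_option linter.unusedSectionVars false
set_option linter.style.haveILetI false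
set_option linter.unusedVariables false

open Polynomial CuspForm IsLocalRing

namespace Fermat.Agent.S59.CaseC.H47

open Fermat.Agent.S59 Fermat.Agent.S59.Asm Fermat.Agent.S59.NonMin
  Fermat.Agent.S59.NonMin.H47

/-- The residual representation of a Hecke–Galois datum is `ρbar` as soon as the Frobenius
characteristic polynomials of `ρbar` are given by `θ`. -/
theorem residual_isEquiv_of_datum {𝒪 : Type} [CommRing 𝒪] [IsDomain 𝒪]
    [IsDiscreteValuationRing 𝒪] [IsAdicComplete (maximalIdeal 𝒪) 𝒪] [Finite (ResidueField 𝒪)]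
    [CharZero 𝒪]
    {N : ℕ} [NeZero N] {S : Finset ℕ}
    {θ : CuspForm.heckeAlgebra N 2 (↑S : Set ℕ) →+* ResidueField 𝒪}
    {T : Type} [CommRing T] [IsLocalRing T] [IsNoetherianRing T]
    [IsAdicComplete (maximalIdeal T) T] [Algebra 𝒪 T] [IsLocalHom (algebraMap 𝒪 T)]
    [Module.Finite 𝒪 T] [Module.Free 𝒪 T]
    (H : CuspForm.HeckeGaloisRepDatum N (↑S : Set ℕ) 𝒪 θ T)
    (hNS : ∀ q : ℕ, q.Prime → q ∣ N → q ∈ S)
    (ρbar : ResidualGaloisRep (ResidueField 𝒪)) (habs : ρbar.IsAbsolutelyIrreducible)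
    (hθ : Fermat.Agent.S59.Datum.FrobHyp ρbar N S θ) :
    H.ρ.residual.IsEquiv (ρbar.baseChangeAlong (ResidueField.map (algebraMap 𝒪 T))) := by
  refine Fermat.Agent.S59.Datum.H57.stmt_ResEq _ _ _ S
    (Fermat.Agent.S59.Datum.H57.absIrr_baseChangeAlong _ ρbar habs) ?_
  intro ℓ hℓ hℓS B hB σ hσ
  rw [charpoly_bcAlong_resid]
  exact Fermat.Agent.S59.Datum.H7.residual_charpoly 𝒪 N S H.π θ H.residue_π H.ρ
    H.charpoly_frob ρbar hθ hNS ℓ hℓ hℓS B hB σ hσ

/-- **Descent of ordinarity along a bijective classifying map.** -/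
theorem isOrdinaryAt_of_bijective {A B : Type} [CommRing A] [IsLocalRing A]
    [IsNoetherianRing A] [CommRing B] [IsLocalRing B]
    (φ : A →+* B) (hφb : Function.Bijective φ) (hφ : IsLocalHom φ)
    (ρ : GaloisRepAdic A) (ρ' : GaloisRepAdic B)
    (he : (ρ.baseChangeAlong φ hφ).IsEquiv ρ')
    (hirr : ρ'.residual.IsAbsolutelyIrreducible) (p : ℕ)
    (h : ρ'.IsOrdinaryAt p) : ρ.IsOrdinaryAt p := by
  let e : A ≃+* B := RingEquiv.ofBijective φ hφb
  let ψ : B →+* A := (e.symm : B →+* A)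
  have hφψ : ∀ y : B, φ (ψ y) = y := fun y => e.apply_symm_apply y
  have hψφ : ∀ y : A, ψ (φ y) = y := fun y => e.symm_apply_apply y
  have hψl : IsLocalHom ψ := by
    constructor
    intro y hy
    have h1 : IsUnit (φ (ψ y)) := hy.map φ
    rw [hφψ] at h1
    exact h1
  have hirr' : (ρ'.baseChangeAlong ψ hψl).residual.IsAbsolutelyIrreducible :=
    Fermat.Agent.R.H86.residual_absIrr_baseChangeAlong ψ hψl ρ' hirr
  have he' : (ρ'.baseChangeAlong ψ hψl).IsEquiv ρ := by
    refine Fermat.Agent.S59.Asm.H57.isEquiv_of_frobenius _ ρ hirr' ∅ fun ℓ _ _ C _ σ _ => ?_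
    have h4 : ψ.comp φ = RingHom.id A := RingHom.ext fun y => hψφ y
    rw [charpoly_bcAlong, ← charpoly_of_isEquiv he σ, charpoly_bcAlong, Polynomial.map_map, h4,
      Polynomial.map_id]
  exact isOrdinaryAt_of_isEquiv he' p (isOrdinaryAt_baseChangeAlong ψ hψl ρ' p h)

/-- A representation whose residual representation is (a base change of) an ordinary `ρbar` is
residually ordinary. -/
theorem ofResidual_isOrdinaryAt_of_residual_isEquiv {k k' : Type} [Field k] [Field k']
    (f : k →+* k') (ρbar : ResidualGaloisRep k) (ρ' : ResidualGaloisRep k')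
    (he : ρ'.IsEquiv (ρbar.baseChangeAlong f)) (p : ℕ)
    (h : (GaloisRepAdic.ofResidualGaloisRep ρbar).IsOrdinaryAt p) :
    (GaloisRepAdic.ofResidualGaloisRep ρ').IsOrdinaryAt p := by
  have h1 : (GaloisRepAdic.ofResidualGaloisRep (ρbar.baseChangeAlong f)).IsOrdinaryAt p :=
    fun P hP => ordinary_core f (GaloisRepAdic.ofResidualGaloisRep ρbar) P (h P hP)
  obtain ⟨e⟩ := he
  exact Fermat.Agent.S59.NonMin.H2.ofResidual_isOrdinaryAt_of_isEquiv ⟨e.symm⟩ p h1

/-- The eigenspace of a state is the `𝔭`-torsion of the module over the local Hecke ring. -/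
theorem eigen_eq_torsP {𝒪 : Type} [CommRing 𝒪] [IsLocalRing 𝒪] (s : NMState 𝒪)
    {T : Type} [CommRing T] [Algebra 𝒪 T]
    (π : CuspForm.heckeAlgebra s.N 2 (↑s.S : Set ℕ) →+* T)
    (hadj : Algebra.adjoin 𝒪 (Set.range π) = ⊤)
    (ηhat : T →ₐ[𝒪] Module.End 𝒪 s.M.V) (hη : ∀ t, ηhat (π t) = s.M.η t)
    (πx : T →ₐ[𝒪] 𝒪) (x : CuspForm.heckeAlgebra s.N 2 (↑s.S : Set ℕ) →+* 𝒪)
    (hπx : ∀ t, πx (π t) = x t) :
    s.eigen x = Fermat.Agent.S59.NonMin.H90.torsP ηhat πx := by
  ext v
  rw [NMState.mem_eigen, Fermat.Agent.S59.NonMin.H90.mem_torsP_iff_of_adjoin hadj]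
  constructor
  · intro h t
    rw [hη, hπx]
    exact h t
  · intro h t
    have := h t
    rw [hη, hπx] at this
    exact this

/-- `#(𝒪/(u a)) = #(𝒪/(a))` for a unit `u`. -/
theorem card_quot_span_unit_mul {𝒪 : Type} [CommRing 𝒪] (u a : 𝒪) (hu : IsUnit u) :
    Nat.card (𝒪 ⧸ Ideal.span {u * a}) = Nat.card (𝒪 ⧸ Ideal.span {a}) := by
  rw [Ideal.span_singleton_mul_left_unit hu]

end Fermat.Agent.S59.CaseC.H47
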