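import Mathlib
import Fermat.Agent.S59.CaseC.H47_StepPAux
import Fermat.Agent.S59.NonMin.H90_StepEigen
import Fermat.Agent.S59.Datum.Defs
import Fermat.Agent.S59.Asm.H7_Cond
import Fermat.Agent.S59.NonMin.H92_EtaNe
import Fermat.Agent.S59.NonMin.H92_Pres
import Fermat.Agent.S59.Asm.H85_ResLoc
import Fermat.Agent.S59.Asm.H85_LocMod
import Fermat.Agent.S59.RT
import Fermat.Agent.S54
import Fermat.Agent.Lib.FrobExists

/-!
# S59, case C (helper47): the wiring of the step at `p`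

* `stepP_core`     : the step at `p`, with the geometric input in the weakest (pointwise) form;
  `Datum.Stmt_DATUM` and the frozen S31, S34 (`Asm.H7.Stmt_UnrDatum`, `Asm.H7.Stmt_UnipDatum`) are
  hypotheses, to keep the closure of this file small.
* `steppwire_of`   : `CaseC.Stmt_STEPPWIRE` from these three.
The unconditional wirings `stmt_STEPPWIRE : CaseC.Stmt_STEPPWIRE` and
`stmt_STEPPptWIRE : Geom.Stmt_STEPPptWIRE` are in `CaseC/Geom/H47_StepPpt.lean`.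

From `R = T` at a state `s` of level `N` prime to `p` (flat condition):
1. `H.ρ` has cyclotomic determinant and residual representation `ρbar`; it is ordinary at `p`
   (`Stmt_ORDT`), hence so is `D.ρ` (`φ` is bijective: `isOrdinaryAt_of_bijective`).
2. `D'` := the ordinary deformation ring (`Stmt_DEFord`), `τ : D'.R ↠ D.R` (`Stmt_TAUP`).
3. A place `P` over `p`, a Frobenius element `g`, the ordinary line of `D.ρ` at `P` and the
   eigenvalue `z_D` of `g` on the quotient; transport to `H.ρ` (`z := φ z_D`).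
4. The geometry gives the step `NMStepP s p (ηhat (t (z² - 1)))`.
5. The datum `H'` at level `N p` (`Datum.stmt_DATUM`), of type `condOrd` (`S31`, `S34`,
   `Stmt_S33`), `φ' : D'.R ↠ T'` (`S54`), `res : T' → T`, `res ∘ φ' = φ ∘ τ`
   (`NonMin.H90.compat_of_bijective`).
6. The Selmer bound (`Stmt_SELMERp`, `Stmt_CPNE`) and the algebraic core
   (`NonMin.H90.step_core`): `φ'` is bijective.
7. `eigenform_of_RT`.
-/

set_option autoImplicit false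
set_option linter.unusedSectionVars false
set_option linter.style.haveILetI false
set_option linter.unusedVariables false
set_option maxHeartbeats 8000000

open Polynomial CuspForm CongruenceSubgroup ModularFormClass IsLocalRing

namespace Fermat.Agent.S59.CaseC.H47

open Fermat.Agent.S59 Fermat.Agent.S59.Asm Fermat.Agent.S59.NonMin
  Fermat.Agent.S59.NonMin.H47

/-- a prime power prime to `p` divides `N p` iff it divides `N` -/
theorem pow_dvd_mul_prime_iff {N p q : ℕ} (hp : p.Prime) (hq : q.Prime) (hne : q ≠ p) (k : ℕ) :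
    q ^ k ∣ N * p ↔ q ^ k ∣ N := by
  have hcop : Nat.Coprime (q ^ k) p :=
    Nat.Coprime.pow_left k ((Nat.coprime_primes hq hp).mpr hne)
  exact ⟨fun h => hcop.dvd_of_dvd_mul_right h, fun h => Dvd.dvd.mul_right h _⟩

/-- **The step at `p`**, with the geometric input in pointwise form: for every Hecke–Galois
datum `H`, ordinary line, Frobenius element, eigenvalue `z` and point `πx` there are the data of
the step `NMStepP s p c` whose constant `c` acts on the eigenspace of `πx` as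
`w (πx(z)² - 1)`, `w` a unit. -/
theorem stepP_core (hDATUM : Fermat.Agent.S59.Datum.Stmt_DATUM)
    (hUnr : Fermat.Agent.S59.Asm.H7.Stmt_UnrDatum)
    (hUnip : Fermat.Agent.S59.Asm.H7.Stmt_UnipDatum)
    (hS33 : Stmt_S33) (hDEF : Stmt_DEFord) (hORDT : Stmt_ORDT)
    (hTAUP : Stmt_TAUP) (hSEL : Stmt_SELMERp) (hCPNE : Stmt_CPNE)
    (𝒪 : Type) [CommRing 𝒪] [IsDomain 𝒪] [IsDiscreteValuationRing 𝒪]
    [IsAdicComplete (maximalIdeal 𝒪) 𝒪] [Finite (ResidueField 𝒪)] [CharZero 𝒪]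
    (p : ℕ) [Fact p.Prime] (hp2 : p ≠ 2) (hp𝒪 : (p : 𝒪) ∈ maximalIdeal 𝒪)
    (ρbar : ResidualGaloisRep (ResidueField 𝒪)) (Smin : Finset ℕ)
    (hyp : ResHyp p ρbar Smin)
    (hbar : cond 𝒪 p true Smin ∅ (GaloisRepAdic.ofResidualGaloisRep ρbar))
    (hord : (GaloisRepAdic.ofResidualGaloisRep ρbar).IsOrdinaryAt p)
    (Sig : Finset ℕ) (s : NMState 𝒪) [Fact (CuspForm.HasIntegralStructure s.N 2)]
    (hLev : LevelHyp 𝒪 p true Smin Sig s)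
    (hF : Fermat.Agent.S59.Datum.FrobHyp ρbar s.N s.S s.θ)
    (x : CuspForm.heckeAlgebra s.N 2 (↑s.S : Set ℕ) →+* 𝒪)
    (hx : ∀ t, residue 𝒪 (x t) = s.θ t)
    (d : ℕ) (hd : 0 < d) (hRT : RTProp 𝒪 p true ρbar Smin Sig s x d)
    [NeZero (s.N * p)] [Fact (CuspForm.HasIntegralStructure (s.N * p) 2)]
    (hgeom : ∀ (H : CuspForm.HeckeGaloisRepDatum s.N (↑s.S : Set ℕ) 𝒪 s.θ
          (CuspForm.heckeLocal s.N (↑s.S : Set ℕ) 𝒪 s.θ))
        (ηhat : CuspForm.heckeLocal s.N (↑s.S : Set ℕ) 𝒪 s.θ →ₐ[𝒪] Module.End 𝒪 s.M.V),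
        H.π = CuspForm.heckeLocal.π s.N (↑s.S : Set ℕ) 𝒪 s.θ →
        (∀ t, ηhat (CuspForm.heckeLocal.π s.N (↑s.S : Set ℕ) 𝒪 s.θ t) = s.M.η t) →
        H.ρ.DetIsCyclotomic p →
        H.ρ.residual.IsEquiv (ρbar.baseChangeAlong
          (ResidueField.map (algebraMap 𝒪 (CuspForm.heckeLocal s.N (↑s.S : Set ℕ) 𝒪 s.θ)))) →
        ∀ (P : ValuationSubring (AlgebraicClosure ℚ)), P.LiesOverPrime p →
        ∀ (ℒ : OrdLine H.ρ P) (g : AlgebraicClosure ℚ ≃ₐ[ℚ] AlgebraicClosure ℚ),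
        P.IsFrobeniusAt g p →
        ∀ z : CuspForm.heckeLocal s.N (↑s.S : Set ℕ) 𝒪 s.θ, ℒ.IsQuotEigen g z →
        ∀ πx : CuspForm.heckeLocal s.N (↑s.S : Set ℕ) 𝒪 s.θ →ₐ[𝒪] 𝒪,
        ∃ (c : Module.End 𝒪 s.M.V) (_ : NMStepP s p c) (w : 𝒪ˣ),
          ∀ v : s.M.V, (∀ t, ηhat t v = πx t • v) →
            c v = ((w : 𝒪) * (πx z ^ 2 - 1)) • v)
    (ρ : GaloisRepAdic 𝒪) (hρ : condOrd 𝒪 p Smin Sig ρ)
    (hres : ρ.residual.IsEquiv (ρbar.baseChangeAlong (ResidueField.map (algebraMap 𝒪 𝒪))))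
    (a : ℕ → ℤ)
    (hfrob : ∀ ℓ : ℕ, ℓ.Prime → ℓ ∉ Smin ∪ Sig →
      ∀ A : ValuationSubring (AlgebraicClosure ℚ), A.LiesOverPrime ℓ →
        ∀ σ : AlgebraicClosure ℚ ≃ₐ[ℚ] AlgebraicClosure ℚ, A.IsFrobeniusAt σ ℓ →
          LinearMap.charpoly (ρ.ρ σ) = X ^ 2 - C (((a ℓ : ℤ) : 𝒪)) * X + C ((ℓ : 𝒪))) :
    ∃ g : CuspForm (Gamma0 (s.N * p)) 2, g.IsNormalizedEigenform ∧
      ∀ ℓ : ℕ, ℓ.Prime → ¬ ℓ ∣ s.N * p → ℓ ∉ Smin ∪ Sig → qCoeff ⇑g ℓ = (a ℓ : ℂ) := by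
  have hpP : p.Prime := Fact.out
  obtain ⟨hrk, D, H, φ, hφ, ηhat, πx, hHπ, hφb, hφe, hηhat, hπx, hfinΦ, hcard⟩ := hRT
  -- arithmetic of the level
  have hpS : p ∈ s.S := by
    rw [hLev.hS]
    exact Finset.mem_union_left _ hyp.hpSmin
  have hpN : ¬ p ∣ s.N := hLev.hfl rfl
  have hNS : ∀ q : ℕ, q.Prime → q ∣ s.N → q ∈ s.S := hLev.dvd_mem
  have hSprime : ∀ q ∈ Smin ∪ Sig, q.Prime := by
    intro q hq
    rcases Finset.mem_union.mp hq with h | h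
    · exact hyp.hS q h
    · exact (hLev.hSig q h).1
  have hN'S : ∀ q : ℕ, q.Prime → q ∣ s.N * p → q ∈ s.S := by
    intro q hq h
    rcases (Nat.Prime.dvd_mul hq).mp h with h1 | h1
    · exact hNS q hq h1
    · rw [(Nat.prime_dvd_prime_iff_eq hq hpP).mp h1]
      exact hpS
  obtain ⟨hnsq, -⟩ := Fermat.Agent.S59.NonMin.H2.level_mul_p hpP hpN hLev.hcube
  -- 1. the representations at the level `N`
  have hDtype : cond 𝒪 p true Smin Sig D.ρ := D.isOfType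
  have hHdet : H.ρ.DetIsCyclotomic p :=
    Fermat.Agent.S59.H99.detIsCyclotomic_of_isEquiv hφe p
      (Fermat.Agent.S56.H92.detIsCyclotomic_baseChangeAlong _ hφ D.ρ p hDtype.1.1)
  have hHres := residual_isEquiv_of_datum H hNS ρbar hyp.habs hF
  have hHord : H.ρ.IsOrdinaryAt p :=
    hORDT 𝒪 p hp2 hp𝒪 ρbar hyp.habs hyp.hdet hord s.N s.S hpS hNS hpN s.θ H hHπ hHdet hHres
  have hDord : D.ρ.IsOrdinaryAt p :=
    isOrdinaryAt_of_bijective (φ : D.R →+* _) hφb hφ D.ρ H.ρ hφe H.residual_absIrr p hHord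
  have hbarOrd : condOrd 𝒪 p Smin Sig (GaloisRepAdic.ofResidualGaloisRep ρbar) :=
    ⟨⟨hbar.1.1, hord, fun q hq hqS => hbar.1.2.2 q hq fun h => hqS
      (Finset.union_subset_union_right (Finset.empty_subset Sig) h)⟩, hbar.2⟩
  have hDcondOrd : condOrd 𝒪 p Smin Sig D.ρ := ⟨⟨hDtype.1.1, hDord, hDtype.1.2.2⟩, hDtype.2⟩
  -- 2. the ordinary deformation ring
  obtain ⟨D'⟩ := hDEF 𝒪 p hp2 hp𝒪 ρbar hyp.habs Smin Sig hyp.hpSmin hSprime hbarOrd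
  obtain ⟨τ, hτs, hτl, hτe⟩ :=
    hTAUP 𝒪 p hp2 hp𝒪 ρbar Smin Sig hyp.hpSmin hSprime D D' hDord
  -- 3. the ordinary line and the eigenvalue of Frobenius
  obtain ⟨P, g, hP, hg⟩ := Fermat.Agent.Lib.FrobExists.exists_place_and_frobenius p hpP
  have hgD : g ∈ P.decompositionSubgroup ℚ := hg.mem_decompositionSubgroup
  obtain ⟨L, hL⟩ := hDord P hP
  obtain ⟨zD, hzD⟩ := exists_eigen (ρ := D.ρ) (P := P) (L := L) hL g hgD
  obtain ⟨ℒD, hℒD⟩ := exists_ordLine hzD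
  obtain ⟨LH, hLH⟩ :=
    exists_isOrdLineEig_of_baseChange_isEquiv (φ : D.R →+* _) hφ D.ρ H.ρ hφe hzD
  obtain ⟨ℒH, hℒH⟩ := exists_ordLine hLH
  -- 4. the geometry of the step
  obtain ⟨c, st, w, hw⟩ := hgeom H ηhat hHπ hηhat hHdet hHres P hP ℒH g hg (φ zD) hℒH πx
  have hne : πx (φ zD) ^ 2 - 1 ≠ 0 :=
    hCPNE 𝒪 p hp2 hp𝒪 s.N s.S hpS hNS hpN s.θ H hHπ hHdet H.residual_absIrr P hP ℒH g hg
      (φ zD) hℒH πx
  -- 5. the data at the level `N p`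
  have hF' : Fermat.Agent.S59.Datum.FrobHyp ρbar (s.N * p) s.S (s.θ.comp st.rest) :=
    Fermat.Agent.S59.NonMin.H2.frobHyp_comp (N := s.N) (N' := s.N * p) (S := s.S) (S' := s.S)
      hF (Dvd.intro _ rfl) (Finset.Subset.refl _) st.rest
      (fun ℓ hℓ hℓN' hℓS' hℓN hℓS => st.rest_T ℓ hℓ hℓN' hℓS' hℓN)
  obtain ⟨H', hH'π, hH'det, hH'res⟩ := hDATUM 𝒪 p hp2 hp𝒪
    (s.N * p) s.S hpS hN'S ρbar hyp.habs (s.θ.comp st.rest) hF'
  have hH'ord : H'.ρ.IsOrdinaryAt p :=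
    hS33 hpP hp2 hp𝒪 ⟨Dvd.intro_left _ rfl, hnsq⟩ hN'S H'
      (ofResidual_isOrdinaryAt_of_residual_isEquiv _ ρbar _ hH'res p hord)
  have hH'cond : condOrd 𝒪 p Smin Sig H'.ρ := by
    refine ⟨⟨hH'det, hH'ord, fun q hq hqS => ?_⟩, fun q hq hqP hqp => ?_⟩
    · refine hUnr 𝒪 p hpP hp𝒪 (s.N * p) s.S hpS hN'S (s.θ.comp st.rest) H' q hq ?_
      rw [hLev.hS]
      exact hqS
    · have h1 := pow_dvd_mul_prime_iff (N := s.N) hpP hqP hqp 1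
      have h2 := pow_dvd_mul_prime_iff (N := s.N) hpP hqP hqp 2
      rw [pow_one] at h1
      exact hUnip 𝒪 p hpP hp𝒪 (s.N * p) s.S hpS hN'S (s.θ.comp st.rest) H' q hqP hqp
        (h1.mpr (hLev.hmin q hq hqp).1) (fun h => (hLev.hmin q hq hqp).2 (h2.mp h))
  obtain ⟨φ', hφ's, hφ'l, hφ'e⟩ := Fermat.Agent.S54.result D' H'
    (fun q hq hqN => Finset.mem_coe.mpr (hN'S q hq hqN)) hH'cond hH'res
  obtain ⟨res, hres'⟩ := Fermat.Agent.S59.Asm.H85.stmt_RESLOC 𝒪 s.N (s.N * p)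
    (↑s.S : Set ℕ) (↑s.S : Set ℕ) s.θ st.rest
  obtain ⟨ηhat', hηhat'⟩ := Fermat.Agent.S59.Asm.H85.stmt_LOCMOD 𝒪 (s.N * p) (↑s.S : Set ℕ)
    (s.θ.comp st.rest) st.M'
  obtain ⟨n, γ', hγ'⟩ := Fermat.Agent.S59.NonMin.H92.stmt_PRES 𝒪 ρbar _ D'
  have hadj : Algebra.adjoin 𝒪
      (Set.range (CuspForm.heckeLocal.π s.N (↑s.S : Set ℕ) 𝒪 s.θ)) = ⊤ := by
    rw [← hHπ]
    exact H.adjoin_range_π
  have hadj' : Algebra.adjoin 𝒪
      (Set.range (CuspForm.heckeLocal.π (s.N * p) (↑s.S : Set ℕ) 𝒪 (s.θ.comp st.rest))) = ⊤ := by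
    rw [← hH'π]
    exact H'.adjoin_range_π
  have hcompat : res.comp φ' = φ.comp τ := by
    refine Fermat.Agent.S59.NonMin.H90.compat_of_bijective ρbar _ _ D D' hDcondOrd H.ρ H'.ρ
      τ hτl hτe φ hφb hφ hφe φ' hφ'l hφ'e res s.S ?_
    intro ℓ hℓ hℓS B hB σ hσ
    have hℓN : ¬ ℓ ∣ s.N := fun h => hℓS (hNS ℓ hℓ h)
    have hℓN' : ¬ ℓ ∣ s.N * p := fun h => hℓS (hN'S ℓ hℓ h)
    have hℓS' : ℓ ∉ (↑s.S : Set ℕ) := fun h => hℓS (Finset.mem_coe.mp h)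
    rw [H'.charpoly_frob ℓ hℓ hℓN' hℓS' B hB σ hσ, H.charpoly_frob ℓ hℓ hℓN hℓS' B hB σ hσ,
      hH'π, hHπ]
    simp only [Polynomial.map_add, Polynomial.map_sub, Polynomial.map_mul, Polynomial.map_pow,
      Polynomial.map_X, Polynomial.map_C, map_natCast, Polynomial.map_natCast, RingHom.coe_coe]
    rw [hres', st.rest_T ℓ hℓ hℓN' hℓS' hℓN]
  -- 6. the Selmer bound and the algebraic core
  have hsel := hSEL 𝒪 p hp2 hp𝒪 ρbar Smin Sig hyp.habs hyp.hpSmin hSprime D D' τ hτl hτe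
    (πx.comp φ) P hP ℒD g hgD zD hℒD hne hfinΦ
  have hsel' : Finite (RingHom.ker (((πx.comp φ).comp τ : D'.R →ₐ[𝒪] 𝒪) :
        D'.R →+* 𝒪)).Cotangent ∧
      Nat.card (RingHom.ker (((πx.comp φ).comp τ : D'.R →ₐ[𝒪] 𝒪) : D'.R →+* 𝒪)).Cotangent ≤
        Nat.card (RingHom.ker ((πx.comp φ : D.R →ₐ[𝒪] 𝒪) : D.R →+* 𝒪)).Cotangent *
          Nat.card (𝒪 ⧸ Ideal.span {(w : 𝒪) * (πx (φ zD) ^ 2 - 1)}) := by
    rw [card_quot_span_unit_mul _ _ w.isUnit]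
    exact hsel
  have hη : Fermat.Agent.S59.NumCrit.eta πx ≠ ⊥ :=
    Fermat.Agent.S59.NonMin.H92.stmt_ETANE 𝒪 s.N s.S hNS s.θ πx
  have hη' : Fermat.Agent.S59.NumCrit.eta (πx.comp res) ≠ ⊥ :=
    Fermat.Agent.S59.NonMin.H92.stmt_ETANE 𝒪 (s.N * p) s.S hN'S (s.θ.comp st.rest)
      (πx.comp res)
  have hα : ∀ (t' : CuspForm.heckeLocal (s.N * p) (↑s.S : Set ℕ) 𝒪 (s.θ.comp st.rest))
      (v : s.M.V), st.α (ηhat (res t') v) = ηhat' t' (st.α v) := by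
    intro t'
    refine Fermat.Agent.S59.NonMin.H90.intertwine_of_gen_left hadj' ηhat ηhat' res st.α ?_ t'
    intro t₀ v
    rw [hres', hηhat, hηhat']
    exact st.α_η t₀ v
  have hα' : ∀ (t' : CuspForm.heckeLocal (s.N * p) (↑s.S : Set ℕ) 𝒪 (s.θ.comp st.rest))
      (w : st.M'.V), st.α' (ηhat' t' w) = ηhat (res t') (st.α' w) := by
    intro t'
    refine Fermat.Agent.S59.NonMin.H90.intertwine_of_gen_right hadj' ηhat ηhat' res st.α' ?_ t'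
    intro t₀ w
    rw [hres', hηhat, hηhat']
    exact st.α'_η t₀ w
  have hc : ∀ v ∈ Fermat.Agent.S59.NonMin.H90.torsP ηhat πx,
      st.α' (st.α v) = ((w : 𝒪) * (πx (φ zD) ^ 2 - 1)) • v := by
    intro v hv
    rw [st.comp v]
    exact hw v fun t' => Fermat.Agent.S59.NonMin.H90.apply_eq_smul_of_mem_torsP hv t'
  have hπx' : ∀ t₀, (πx.comp res)
      (CuspForm.heckeLocal.π (s.N * p) (↑s.S : Set ℕ) 𝒪 (s.θ.comp st.rest) t₀) =
      (x.comp st.rest) t₀ := by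
    intro t₀
    rw [AlgHom.comp_apply, hres', hπx]
    rfl
  have hT1 : Fermat.Agent.S59.NonMin.H90.torsP ηhat πx = s.eigen x :=
    Fermat.Agent.S59.NonMin.H90.torsP_eq_eigen s x ηhat πx hadj hηhat hπx
  have hT2 : Fermat.Agent.S59.NonMin.H90.torsP ηhat' (πx.comp res) = NMState.eigen
      (⟨s.N * p, s.S, s.θ.comp st.rest, st.M'⟩ : NMState 𝒪) (x.comp st.rest) :=
    Fermat.Agent.S59.NonMin.H90.torsP_eq_eigen
      (⟨s.N * p, s.S, s.θ.comp st.rest, st.M'⟩ : NMState 𝒪)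
      (x.comp st.rest) ηhat' (πx.comp res) hadj' hηhat' hπx'
  have hrkT : Module.finrank 𝒪 (Fermat.Agent.S59.NonMin.H90.torsP ηhat πx) = d := by
    rw [hT1]
    exact hrk
  have hrk' := st.rank x hx
  rw [hrk] at hrk'
  have hrkT' : Module.finrank 𝒪
      (Fermat.Agent.S59.NonMin.H90.torsP ηhat' (πx.comp res)) ≤ d := by
    rw [hT2]
    exact hrk'
  obtain ⟨hφ'b, -, -⟩ := Fermat.Agent.S59.NonMin.H90.step_core τ φ φ' hφ's res hcompat πx γ' hγ'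
    ηhat ηhat' hη hη' st.α hα st.α' hα' st.α_inj st.α_sat st.α'_surj
    ((w : 𝒪) * (πx (φ zD) ^ 2 - 1)) hc d hd hrkT hrkT' hcard hsel'
  -- 7. the eigenform
  have hmem : ∀ ℓ : ℕ, ℓ ∉ (↑s.S : Set ℕ) → ℓ ∉ Smin ∪ Sig := by
    intro ℓ hℓ h
    apply hℓ
    rw [Finset.mem_coe, hLev.hS]
    exact h
  have hmem' : ∀ ℓ : ℕ, ℓ ∉ Smin ∪ Sig → ℓ ∉ (↑s.S : Set ℕ) := by
    intro ℓ hℓ h
    apply hℓ
    rw [Finset.mem_coe, hLev.hS] at h
    exact h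
  obtain ⟨gf, hgf, hga⟩ := eigenform_of_RT D' H' φ' hφ's hφ'b.1 hφ'l hφ'e ρ hρ hres a
    (fun ℓ hℓ hℓN hℓS A hA σ hσ => hfrob ℓ hℓ (hmem ℓ hℓS) A hA σ hσ)
  exact ⟨gf, hgf, fun ℓ hℓ hℓN hℓS => hga ℓ hℓ hℓN (hmem' ℓ hℓS)⟩

/-- **STEP-p**, the wiring (form of `CaseC/Defs.lean`: the constant is `ηhat (t (z² - 1))`, `t` a
unit of the Hecke ring). -/
theorem steppwire_of (hDATUM : Fermat.Agent.S59.Datum.Stmt_DATUM)
    (hUnr : Fermat.Agent.S59.Asm.H7.Stmt_UnrDatum)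
    (hUnip : Fermat.Agent.S59.Asm.H7.Stmt_UnipDatum) : Stmt_STEPPWIRE := by
  intro hS33 hDEF hORDT hTAUP hSEL hCPNE
  intro 𝒪 _ _ _ _ _ _ p _ hp2 hp𝒪 ρbar Smin hyp hbar hord Sig s _ hLev hF x hx d hd hRT _ _
    hgeom ρ hρ hres a hfrob
  refine stepP_core hDATUM hUnr hUnip hS33 hDEF hORDT hTAUP hSEL hCPNE 𝒪 p hp2 hp𝒪 ρbar Smin
    hyp hbar hord Sig s hLev hF x hx d hd hRT ?_ ρ hρ hres a hfrob
  intro H ηhat hHπ hηhat hHdet hHres P hP ℒ g hg z hz πx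
  obtain ⟨t, ht, ⟨st⟩⟩ := hgeom H ηhat hHπ hηhat hHdet hHres P hP ℒ g hg z hz
  refine ⟨_, st, (ht.map πx).unit, fun v hv => ?_⟩
  rw [hv, IsUnit.unit_spec, map_mul, map_sub, map_pow, map_one]

end Fermat.Agent.S59.CaseC.H47
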