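/-
S59, package CASE-C, leaf CP-NE, the bridge (helper12):
`cpne_of_geom : CaseC.Geom.Stmt_LGCpt → CaseC.Stmt_CPNE`.

* `ordLine_baseChange` : an ordinary line with its Frobenius eigenvalue on the quotient base
                         changes along a local homomorphism.
* `exists_ext_char`    : a character `x : A₀ → 𝒪` of a subring `A₀` of a ring `A₁` which is a
                         finitely generated `ℤ`-module extends to a character `A₁ → 𝒪'` with values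
                         in a complete discrete valuation ring `𝒪'` finite over `𝒪`.
* `lgc_at_point`       : LGC-pt at a point `πx` of the local Hecke ring away from `S`: there are
                         `𝒪'` finite over `𝒪` and a character `xt` of the Hecke algebra away from
                         `S ∖ {p}` extending `πx ∘ π`, with `u² - xt(T_p) u + p = 0`, `u = πx z`.
* `lgcpt_bridge`       : `Geom.Stmt_LGCpt → H12.Stmt_LGCpt`;  `cpne_of_geom`.
-/
import Fermat.Agent.S59.CaseC.H12_CPNE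
import Fermat.Agent.S59.CaseC.Geom.Defs
import Fermat.Agent.S59.Asm.Plumb
import Fermat.Agent.R.H2_PDVR
import Fermat.Agent.R.H86_Point
import Fermat.Agent.S56.H92_StableSO

set_option autoImplicit false
set_option linter.style.haveILetI false
set_option linter.unusedSectionVars false
set_option linter.unusedVariables false

open Polynomial CuspForm CongruenceSubgroup ModularFormClass IsLocalRing
open scoped TensorProduct

namespace Fermat.Agent.S59.CaseC.H12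

open Fermat.Agent.S59 Fermat.Agent.S59.Asm Fermat.Agent.S59.NonMin Fermat.Agent.S59.CaseC

section OrdLine

variable {A : Type} [CommRing A] [IsLocalRing A] {B : Type} [CommRing B] [IsLocalRing B]

/-- Core of `ordLine_baseChange`, stated on `B ⊗[A] V` directly. -/
theorem ordLine_core (φ : A →+* B) (ρ : GaloisRepAdic A)
    (P : ValuationSubring (AlgebraicClosure ℚ)) (ℒ : OrdLine ρ P)
    (g : AlgebraicClosure ℚ ≃ₐ[ℚ] AlgebraicClosure ℚ) (z : A)
    (hz : ℒ.IsQuotEigen g z) :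
    letI : Algebra A B := φ.toAlgebra
    ∃ L : Submodule B (B ⊗[A] ρ.V),
      (∃ b : Module.Basis (Fin 2) B (B ⊗[A] ρ.V), L = Submodule.span B {b 0}) ∧
      (∀ σ ∈ P.decompositionSubgroup ℚ, ∀ v ∈ L, (ρ.ρ σ).baseChange B v ∈ L) ∧
      (∀ σ ∈ P.inertiaSubgroupIn ℚ, ∀ v : B ⊗[A] ρ.V, (ρ.ρ σ).baseChange B v - v ∈ L) ∧
      (∀ v : B ⊗[A] ρ.V, (ρ.ρ g).baseChange B v - φ z • v ∈ L) := by
  letI : Algebra A B := φ.toAlgebra
  obtain ⟨b, hb⟩ := ℒ.isLine
  have hb0 : b 0 ∈ ℒ.L := by rw [hb]; exact Submodule.mem_span_singleton_self _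
  have hD := ℒ.stable
  have hI := ℒ.inertia
  refine ⟨Submodule.span B {(1 : B) ⊗ₜ[A] b 0}, ⟨b.baseChange B, ?_⟩, ?_, ?_, ?_⟩
  · rw [Module.Basis.baseChange_apply]
  · intro σ hσ v hv
    obtain ⟨c, rfl⟩ := Submodule.mem_span_singleton.1 hv
    rw [map_smul, LinearMap.baseChange_tmul]
    refine Submodule.smul_mem _ _ ?_
    have := hD σ hσ (b 0) hb0
    rw [hb] at this
    exact Fermat.Agent.S56.H92.tmul_mem_span φ 1 this
  · intro σ hσ v
    induction v using TensorProduct.induction_on with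
    | zero => rw [LinearMap.map_zero, sub_zero]; exact Submodule.zero_mem _
    | tmul c v =>
      rw [LinearMap.baseChange_tmul, ← TensorProduct.tmul_sub]
      have := hI σ hσ v
      rw [hb] at this
      exact Fermat.Agent.S56.H92.tmul_mem_span φ c this
    | add x y hx hy =>
      rw [map_add, add_sub_add_comm]
      exact Submodule.add_mem _ hx hy
  · intro v
    induction v using TensorProduct.induction_on with
    | zero => rw [LinearMap.map_zero, smul_zero, sub_zero]; exact Submodule.zero_mem _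
    | tmul c v =>
      have h1 : φ z • (c ⊗ₜ[A] v : B ⊗[A] ρ.V) = c ⊗ₜ[A] (z • v) := by
        rw [TensorProduct.tmul_smul, TensorProduct.smul_tmul', TensorProduct.smul_tmul']
        rfl
      rw [LinearMap.baseChange_tmul, h1, ← TensorProduct.tmul_sub]
      have := hz v
      rw [hb] at this
      exact Fermat.Agent.S56.H92.tmul_mem_span φ c this
    | add x y hx hy =>
      rw [map_add, smul_add, add_sub_add_comm]
      exact Submodule.add_mem _ hx hy

/-- An ordinary line, with the eigenvalue of `g` on the quotient, base changes along a local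
homomorphism. -/
theorem ordLine_baseChange (φ : A →+* B) (hφ : IsLocalHom φ) (ρ : GaloisRepAdic A)
    (P : ValuationSubring (AlgebraicClosure ℚ)) (ℒ : OrdLine ρ P)
    (g : AlgebraicClosure ℚ ≃ₐ[ℚ] AlgebraicClosure ℚ) (z : A)
    (hz : ℒ.IsQuotEigen g z) :
    ∃ ℒ' : OrdLine (ρ.baseChangeAlong φ hφ) P, ℒ'.IsQuotEigen g (φ z) := by
  obtain ⟨L, h1, h2, h3, h4⟩ := ordLine_core φ ρ P ℒ g z hz
  exact ⟨⟨L, h1, h2, h3⟩, h4⟩

end OrdLine

section Ext

/-- A ring homomorphism to an algebraically closed field extends along an injective integral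
extension. -/
theorem exists_ext_algClosed {A₀ A₁ : Type*} [CommRing A₀] [CommRing A₁] [Algebra A₀ A₁]
    [Algebra.IsIntegral A₀ A₁] (hinj : Function.Injective (algebraMap A₀ A₁))
    {Ω : Type*} [Field Ω] [IsAlgClosed Ω] (x : A₀ →+* Ω) :
    ∃ y : A₁ →+* Ω, ∀ a, y (algebraMap A₀ A₁ a) = x a := by
  haveI : (RingHom.ker x).IsPrime := RingHom.ker_isPrime x
  have hcomap : (⊥ : Ideal A₁).comap (algebraMap A₀ A₁) ≤ RingHom.ker x := by
    intro a ha
    rw [Ideal.mem_comap, Ideal.mem_bot] at ha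
    have h0 : a = 0 := hinj (ha.trans (map_zero _).symm)
    rw [h0]
    exact Ideal.zero_mem _
  obtain ⟨𝔓, -, h𝔓prime, h𝔓⟩ :=
    Ideal.exists_ideal_over_prime_of_isIntegral (RingHom.ker x) (⊥ : Ideal A₁) hcomap
  haveI := h𝔓prime
  haveI : (𝔓.comap (algebraMap A₀ A₁)).IsPrime := Ideal.comap_isPrime _ _
  let xbar : A₀ ⧸ 𝔓.comap (algebraMap A₀ A₁) →+* Ω :=
    Ideal.Quotient.lift _ x (fun a ha => by rw [h𝔓] at ha; exact ha)
  have hxbar_inj : Function.Injective xbar := by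
    rw [injective_iff_map_eq_zero]
    intro a ha
    obtain ⟨a, rfl⟩ := Ideal.Quotient.mk_surjective a
    have ha' : x a = 0 := ha
    rw [Ideal.Quotient.eq_zero_iff_mem, h𝔓]
    exact ha'
  letI : Algebra (A₀ ⧸ 𝔓.comap (algebraMap A₀ A₁)) Ω := xbar.toAlgebra
  haveI : Module.IsTorsionFree (A₀ ⧸ 𝔓.comap (algebraMap A₀ A₁)) Ω :=
    Module.isTorsionFree_iff_algebraMap_injective.mpr hxbar_inj
  haveI : Module.IsTorsionFree (A₀ ⧸ 𝔓.comap (algebraMap A₀ A₁)) (A₁ ⧸ 𝔓) :=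
    Module.isTorsionFree_iff_algebraMap_injective.mpr Ideal.algebraMap_quotient_injective
  haveI : Algebra.IsAlgebraic (A₀ ⧸ 𝔓.comap (algebraMap A₀ A₁)) (A₁ ⧸ 𝔓) :=
    Algebra.IsIntegral.isAlgebraic
  let l : (A₁ ⧸ 𝔓) →ₐ[A₀ ⧸ 𝔓.comap (algebraMap A₀ A₁)] Ω := IsAlgClosed.lift
  refine ⟨(l : (A₁ ⧸ 𝔓) →+* Ω).comp (Ideal.Quotient.mk 𝔓), fun a => ?_⟩
  have h1 : Ideal.Quotient.mk 𝔓 (algebraMap A₀ A₁ a) =
      algebraMap (A₀ ⧸ 𝔓.comap (algebraMap A₀ A₁)) (A₁ ⧸ 𝔓) (Ideal.Quotient.mk _ a) := rfl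
  rw [RingHom.comp_apply, h1]
  exact (l.commutes _).trans (Ideal.Quotient.lift_mk _ _ _)

/-- `exists_ext_char` with a given algebraically closed field containing `𝒪`. -/
theorem exists_ext_char_of {A₀ A₁ : Type*} [CommRing A₀] [CommRing A₁] [Algebra A₀ A₁]
    [Module.Finite ℤ A₁] (hinj : Function.Injective (algebraMap A₀ A₁))
    (𝒪 : Type) [CommRing 𝒪] [IsDomain 𝒪] [IsDiscreteValuationRing 𝒪]
    [IsAdicComplete (maximalIdeal 𝒪) 𝒪] [Finite (ResidueField 𝒪)] [CharZero 𝒪]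
    (Ω : Type) [Field Ω] [IsAlgClosed Ω] [Algebra 𝒪 Ω]
    (hιinj : Function.Injective (algebraMap 𝒪 Ω))
    (x : A₀ →+* 𝒪) :
    ∃ (O' : Type) (_ : CommRing O') (_ : IsDomain O') (_ : IsDiscreteValuationRing O')
      (_ : IsAdicComplete (maximalIdeal O') O') (_ : Finite (ResidueField O'))
      (_ : CharZero O') (_ : Algebra 𝒪 O') (_ : Module.Finite 𝒪 O')
      (_ : IsLocalHom (algebraMap 𝒪 O')) (xt : A₁ →+* O'),
      Function.Injective (algebraMap 𝒪 O') ∧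
      ∀ a, xt (algebraMap A₀ A₁ a) = algebraMap 𝒪 O' (x a) := by
  haveI : Algebra.IsIntegral ℤ A₁ := Algebra.IsIntegral.of_finite ℤ A₁
  haveI : Algebra.IsIntegral A₀ A₁ :=
    ⟨fun b => (Algebra.IsIntegral.isIntegral (R := ℤ) b).tower_top⟩
  obtain ⟨y, hy⟩ := exists_ext_algClosed hinj ((algebraMap 𝒪 Ω).comp x)
  -- the image of `𝒪 ⊗ A₁`
  let f : 𝒪 ⊗[ℤ] A₁ →ₐ[𝒪] Ω :=
    Algebra.TensorProduct.lift (Algebra.ofId 𝒪 _) y.toIntAlgHom (fun _ _ => Commute.all _ _)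
  have hf1 : ∀ a : A₁, f (1 ⊗ₜ[ℤ] a) = y a := by
    intro a
    simp [f]
  haveI : Module.Finite 𝒪 f.range :=
    Module.Finite.of_surjective f.rangeRestrict.toLinearMap f.rangeRestrict_surjective
  haveI : FaithfulSMul 𝒪 f.range := by
    rw [faithfulSMul_iff_algebraMap_injective]
    intro a b hab
    exact hιinj (congrArg Subtype.val hab)
  obtain ⟨O', iCR, iD, iDVR, iAC, iFin, iCZ, iAlg, iMF, iLH, j, hO'inj, hjinj, hjO, -⟩ :=
    Fermat.Agent.R.H2.exists_dvr_of_finite_domain 𝒪 f.range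
  refine ⟨O', iCR, iD, iDVR, iAC, iFin, iCZ, iAlg, iMF, iLH,
    j.comp ((f.rangeRestrict : 𝒪 ⊗[ℤ] A₁ →+* f.range).comp
      (Algebra.TensorProduct.includeRight : A₁ →ₐ[ℤ] 𝒪 ⊗[ℤ] A₁).toRingHom), hO'inj, fun a => ?_⟩
  rw [← hjO]
  show j (f.rangeRestrict ((1 : 𝒪) ⊗ₜ[ℤ] algebraMap A₀ A₁ a)) = _
  congr 1
  apply Subtype.ext
  show f ((1 : 𝒪) ⊗ₜ[ℤ] algebraMap A₀ A₁ a) = algebraMap 𝒪 _ (x a)
  rw [hf1, hy]
  rfl

/-- **EXT**: a character `x : A₀ → 𝒪` of a subring `A₀` of a ring `A₁` which is a finitely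
generated `ℤ`-module extends to a character of `A₁` with values in a complete discrete valuation
ring `O'` finite over `𝒪`. -/
theorem exists_ext_char {A₀ A₁ : Type*} [CommRing A₀] [CommRing A₁] [Algebra A₀ A₁]
    [Module.Finite ℤ A₁] (hinj : Function.Injective (algebraMap A₀ A₁))
    (𝒪 : Type) [CommRing 𝒪] [IsDomain 𝒪] [IsDiscreteValuationRing 𝒪]
    [IsAdicComplete (maximalIdeal 𝒪) 𝒪] [Finite (ResidueField 𝒪)] [CharZero 𝒪]
    (x : A₀ →+* 𝒪) :
    ∃ (O' : Type) (_ : CommRing O') (_ : IsDomain O') (_ : IsDiscreteValuationRing O')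
      (_ : IsAdicComplete (maximalIdeal O') O') (_ : Finite (ResidueField O'))
      (_ : CharZero O') (_ : Algebra 𝒪 O') (_ : Module.Finite 𝒪 O')
      (_ : IsLocalHom (algebraMap 𝒪 O')) (xt : A₁ →+* O'),
      Function.Injective (algebraMap 𝒪 O') ∧
      ∀ a, xt (algebraMap A₀ A₁ a) = algebraMap 𝒪 O' (x a) := by
  have hιinj : Function.Injective (algebraMap 𝒪 (AlgebraicClosure (FractionRing 𝒪))) := by
    rw [IsScalarTower.algebraMap_eq 𝒪 (FractionRing 𝒪) (AlgebraicClosure (FractionRing 𝒪))]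
    exact (algebraMap (FractionRing 𝒪) (AlgebraicClosure (FractionRing 𝒪))).injective.comp
      (IsFractionRing.injective 𝒪 (FractionRing 𝒪))
  exact exists_ext_char_of hinj 𝒪 (AlgebraicClosure (FractionRing 𝒪)) hιinj x

end Ext

section Assembly

/-- The inclusion of the Hecke algebra away from `S` into the Hecke algebra away from
`S ∖ {p}`. -/
noncomputable def eraseIncl (N : ℕ) [NeZero N] (S : Finset ℕ) (p : ℕ) :
    CuspForm.heckeAlgebra N 2 (↑S : Set ℕ) →+*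
      CuspForm.heckeAlgebra N 2 (↑(S.erase p) : Set ℕ) :=
  (Subalgebra.inclusion (CuspForm.heckeAlgebra_mono
    (by exact_mod_cast Finset.erase_subset p S))).toRingHom

theorem eraseIncl_injective (N : ℕ) [NeZero N] (S : Finset ℕ) (p : ℕ) :
    Function.Injective (eraseIncl N S p) :=
  Subalgebra.inclusion_injective _

theorem eraseIncl_T (N : ℕ) [NeZero N] (S : Finset ℕ) (p : ℕ) {ℓ : ℕ} (hℓ : ℓ.Prime)
    (hℓN : ¬ ℓ ∣ N) (hℓS : ℓ ∉ (↑S : Set ℕ)) (hℓS' : ℓ ∉ (↑(S.erase p) : Set ℕ)) :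
    eraseIncl N S p (CuspForm.heckeAlgebra.T hℓ hℓN hℓS) =
      CuspForm.heckeAlgebra.T hℓ hℓN hℓS' := rfl

variable (𝒪 : Type) [CommRing 𝒪] [IsDomain 𝒪] [IsDiscreteValuationRing 𝒪]
  [IsAdicComplete (maximalIdeal 𝒪) 𝒪] [Finite (ResidueField 𝒪)] [CharZero 𝒪]

/-- **LGC at a point** of the local Hecke ring away from `S` (level prime to `p`): there are a
complete discrete valuation ring `O'` finite over `𝒪` and a character `xt` of the Hecke algebra
away from `S ∖ {p}` extending the character `πx ∘ π`, such that the eigenvalue `u = πx z` of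
Frobenius on the unramified quotient satisfies `u² - xt(T_p) u + p = 0` in `O'`. -/
theorem lgc_at_point (hG : Fermat.Agent.S59.CaseC.Geom.Stmt_LGCpt)
    (p : ℕ) [hpF : Fact p.Prime] (hp2 : p ≠ 2) (hp𝒪 : (p : 𝒪) ∈ maximalIdeal 𝒪)
    (N : ℕ) [NeZero N] [Fact (CuspForm.HasIntegralStructure N 2)] (S : Finset ℕ) (hpS : p ∈ S)
    (hNS : ∀ q : ℕ, q.Prime → q ∣ N → q ∈ S) (hpN : ¬ p ∣ N)
    (θ : CuspForm.heckeAlgebra N 2 (↑S : Set ℕ) →+* ResidueField 𝒪)
    (H : CuspForm.HeckeGaloisRepDatum N (↑S : Set ℕ) 𝒪 θ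
      (CuspForm.heckeLocal N (↑S : Set ℕ) 𝒪 θ))
    (hdet : H.ρ.DetIsCyclotomic p)
    (P : ValuationSubring (AlgebraicClosure ℚ)) (hP : P.LiesOverPrime p)
    (ℒ : OrdLine H.ρ P) (g : AlgebraicClosure ℚ ≃ₐ[ℚ] AlgebraicClosure ℚ)
    (hg : P.IsFrobeniusAt g p)
    (z : CuspForm.heckeLocal N (↑S : Set ℕ) 𝒪 θ) (hz : ℒ.IsQuotEigen g z)
    (πx : CuspForm.heckeLocal N (↑S : Set ℕ) 𝒪 θ →ₐ[𝒪] 𝒪) :
    ∃ (O' : Type) (_ : CommRing O') (_ : IsDomain O') (_ : IsDiscreteValuationRing O')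
      (_ : IsAdicComplete (maximalIdeal O') O') (_ : Finite (ResidueField O'))
      (_ : CharZero O') (_ : Algebra 𝒪 O') (_ : Module.Finite 𝒪 O')
      (_ : IsLocalHom (algebraMap 𝒪 O'))
      (xt : CuspForm.heckeAlgebra N 2 (↑(S.erase p) : Set ℕ) →+* O'),
      Function.Injective (algebraMap 𝒪 O') ∧
      (∀ t : CuspForm.heckeAlgebra N 2 (↑S : Set ℕ),
        xt (eraseIncl N S p t) = algebraMap 𝒪 O' (πx (H.π t))) ∧
      algebraMap 𝒪 O' (πx z) ^ 2 -
        xt (CuspForm.heckeAlgebra.T hpF.out hpN (not_mem_erase S p)) * algebraMap 𝒪 O' (πx z) +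
        (p : O') = 0 := by
  haveI : Module.Finite ℤ (CuspForm.heckeAlgebra N 2 (↑(S.erase p) : Set ℕ)) :=
    Fermat.Agent.S22.result N 2 _
  letI : Algebra (CuspForm.heckeAlgebra N 2 (↑S : Set ℕ))
      (CuspForm.heckeAlgebra N 2 (↑(S.erase p) : Set ℕ)) := (eraseIncl N S p).toAlgebra
  obtain ⟨O', iCR, iD, iDVR, iAC, iFin, iCZ, iAlg, iMF, iLH, xt, hO'inj, hxt⟩ :=
    exists_ext_char (A₀ := CuspForm.heckeAlgebra N 2 (↑S : Set ℕ))
      (A₁ := CuspForm.heckeAlgebra N 2 (↑(S.erase p) : Set ℕ))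
      (eraseIncl_injective N S p) 𝒪
      ((πx : CuspForm.heckeLocal N (↑S : Set ℕ) 𝒪 θ →+* 𝒪).comp H.π)
  refine ⟨O', iCR, iD, iDVR, iAC, iFin, iCZ, iAlg, iMF, iLH, xt, hO'inj, fun t => hxt t, ?_⟩
  -- the point with values in `O'`
  let ψ : CuspForm.heckeLocal N (↑S : Set ℕ) 𝒪 θ →ₐ[𝒪] O' := (Algebra.ofId 𝒪 O').comp πx
  have hψ : IsLocalHom (ψ : CuspForm.heckeLocal N (↑S : Set ℕ) 𝒪 θ →+* O') :=
    Fermat.Agent.S59.Asm.isLocalHom_of_finite (𝒪 := 𝒪) ψ
  have hψa : ∀ t, (ψ : CuspForm.heckeLocal N (↑S : Set ℕ) 𝒪 θ →+* O') t =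
      algebraMap 𝒪 O' (πx t) := fun t => rfl
  have hpO' : (p : O') ∈ maximalIdeal O' := by
    have := Fermat.Agent.S56.H92.map_mem_maximalIdeal (algebraMap 𝒪 O') iLH hp𝒪
    rwa [map_natCast] at this
  obtain ⟨ℒ', hz'⟩ := ordLine_baseChange
    (ψ : CuspForm.heckeLocal N (↑S : Set ℕ) 𝒪 θ →+* O') hψ H.ρ P ℒ g z hz
  have key := hG O' p hp2 hpO' N S hpS hNS hpF.out hpN (not_mem_erase S p) xt
    (H.ρ.baseChangeAlong (ψ : CuspForm.heckeLocal N (↑S : Set ℕ) 𝒪 θ →+* O') hψ) ?_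
    (Fermat.Agent.S56.H92.detIsCyclotomic_baseChangeAlong _ hψ H.ρ p hdet)
    (Fermat.Agent.R.H86.residual_absIrr_baseChangeAlong _ hψ H.ρ H.residual_absIrr)
    P hP ℒ' g hg _ hz'
  · rw [hψa] at key
    exact key
  · intro ℓ hℓ hℓN hℓS hℓp B hB σ hσ
    have hℓS' : ℓ ∉ (↑S : Set ℕ) := by
      intro h
      apply hℓS
      rw [Finset.mem_coe] at h ⊢
      exact Finset.mem_erase.mpr ⟨hℓp, h⟩
    rw [Fermat.Agent.R.H86.baseChangeAlong_charpoly, H.charpoly_frob ℓ hℓ hℓN hℓS' B hB σ hσ]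
    have h1 : (ψ : CuspForm.heckeLocal N (↑S : Set ℕ) 𝒪 θ →+* O')
        (H.π (CuspForm.heckeAlgebra.T hℓ hℓN hℓS')) =
        xt (CuspForm.heckeAlgebra.T hℓ hℓN hℓS) := by
      rw [hψa, ← eraseIncl_T N S p hℓ hℓN hℓS' hℓS]
      exact (hxt _).symm
    simp only [Polynomial.map_sub, Polynomial.map_add, Polynomial.map_mul, Polynomial.map_pow,
      Polynomial.map_X, Polynomial.map_C, map_natCast, Polynomial.map_natCast, h1]

end Assembly

/-- `Geom.Stmt_LGCpt` gives the pointwise form `H12.Stmt_LGCpt`. -/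
theorem lgcpt_bridge (hG : Fermat.Agent.S59.CaseC.Geom.Stmt_LGCpt) : Stmt_LGCpt := by
  intro 𝒪 _ _ _ _ _ _ p hpF hp2 hp𝒪 N _ _ S hpS hNS hpN θ H hπ hdet hirr P hP ℒ g hg z hz πx
  obtain ⟨O', iCR, iD, iDVR, iAC, iFin, iCZ, iAlg, iMF, iLH, xt, hO'inj, hxt, hroot⟩ :=
    lgc_at_point 𝒪 hG p hp2 hp𝒪 N S hpS hNS hpN θ H hdet P hP ℒ g hg z hz πx
  refine ⟨FractionRing O', inferInstance, inferInstance,
    (algebraMap O' (FractionRing O')).comp (algebraMap 𝒪 O'),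
    (algebraMap O' (FractionRing O')).comp xt, Or.inl ?_⟩
  have h1 := congrArg (algebraMap O' (FractionRing O')) hroot
  simp only [map_add, map_sub, map_mul, map_pow, map_natCast, map_zero] at h1
  simp only [RingHom.comp_apply]
  linear_combination -h1

/-- **CP-NE** from `Geom.Stmt_LGCpt` (LGC-pt in helper53's form). -/
theorem cpne_of_geom (hG : Fermat.Agent.S59.CaseC.Geom.Stmt_LGCpt) : Stmt_CPNE :=
  cpne_of (lgcpt_bridge hG)

end Fermat.Agent.S59.CaseC.H12
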