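import Mathlib
import Fermat.Agent.S59.CaseC.Defs
import Fermat.Agent.S59.NonMin.H47_DefOrd
import Fermat.Agent.S59.NonMin.H47_TauOrd

/-!
# S59, case C (helper47): the leaves DEF-ord and TAU-p in the canonical (`CaseC`) interface

`CaseC.condOrd` and `NonMin.condOrd` have the same body, so `NonMin.H47.stmt_DEFord` and
`NonMin.H47.stmt_TAUord` are `CaseC.Stmt_DEFord` and `CaseC.Stmt_TAUP`.
-/

set_option autoImplicit false

open IsLocalRing

namespace Fermat.Agent.S59.CaseC.H47

/-- the two definitions of the ordinary deformation condition agree -/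
theorem condOrd_eq_nonMin : @Fermat.Agent.S59.CaseC.condOrd = @Fermat.Agent.S59.NonMin.condOrd :=
  rfl

/-- **DEF-ord**, canonical interface. -/
theorem stmt_DEFord : Fermat.Agent.S59.CaseC.Stmt_DEFord :=
  Fermat.Agent.S59.NonMin.H47.stmt_DEFord

/-- **TAU-p**, canonical interface. -/
theorem stmt_TAUP : Fermat.Agent.S59.CaseC.Stmt_TAUP :=
  Fermat.Agent.S59.NonMin.H47.stmt_TAUord

end Fermat.Agent.S59.CaseC.H47
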