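import Fermat.Agent.S59.CaseC.H85_SelmerBridge
import Fermat.Agent.S59.NonMin.H80_SelmerP
import Fermat.Agent.S59.NonMin.H56_PeuFlat
import Fermat.Agent.S59.NonMin.H48_KumP
import Fermat.Agent.S59.NonMin.H77_ExistsI

/-!
# S59, case C (helper85): the Selmer bound at `p`, UNCONDITIONAL

`stmt_SELMERp : CaseC.Stmt_SELMERp` and `stmt_SELMERp_nonMin : NonMin.Stmt_SELMERp`.

Chain: K-CORE + PEUFLAT (helper56, helper92: `NonMin.H56K.stmt_PEUFLAT`), KUM-p (helper48:
`NonMin.H48.stmt_KUMp`), the algebra (helper80: `NonMin.H80.selmerp_of`), EXISTS-i (helper77: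
`NonMin.H77.stmt_EXISTSi`), the bridge (`H85.selmerp_bridge`).
-/

set_option autoImplicit false

namespace Fermat.Agent.S59.CaseC.H85

/-- **SELMER-p**, `NonMin` form, unconditional. -/
theorem stmt_SELMERp_nonMin : Fermat.Agent.S59.NonMin.Stmt_SELMERp :=
  Fermat.Agent.S59.NonMin.H80.selmerp_of Fermat.Agent.S59.NonMin.H48.stmt_KUMp
    Fermat.Agent.S59.NonMin.H56K.stmt_PEUFLAT

/-- **SELMER-p**, canonical (`CaseC`) form, unconditional. -/
theorem stmt_SELMERp : Fermat.Agent.S59.CaseC.Stmt_SELMERp :=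
  selmerp_bridge stmt_SELMERp_nonMin Fermat.Agent.S59.NonMin.H77.stmt_EXISTSi

end Fermat.Agent.S59.CaseC.H85
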