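/-
S59, package CASE-C, leaf CP-NE (helper12): `cpne_of : Stmt_LGCpt → CaseC.Stmt_CPNE`.

* `Stmt_LGCpt` : POINTWISE local–global compatibility at `p` (level prime to `p`), in the weakest
                 form that suffices for CP-NE: at a characteristic zero point `πx` of the local
                 Hecke ring, the eigenvalue `u = πx z` of a Frobenius element at `P ∣ p` on the
                 unramified quotient of `H.ρ` is a root of `X² - a_p X + p` (or of its reciprocal
                 `p X² - a_p X + 1`: the statement does not depend on the normalisation of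
                 Frobenius), where `a_p` is the value at `T_p` of SOME character `x'` of the Hecke
                 algebra away from `S ∖ {p}` (which contains `T_p`) with values in a field of
                 characteristic zero receiving `𝒪`.
* `cpne_of`    : `u² = 1` gives `a_p² = (p + 1)²`, against `NonMin.H56.stmt_CQNE`
                 (`|a_p| < p + 1`, elementary).
-/
import Fermat.Agent.S59.CaseC.Defs
import Fermat.Agent.S59.NonMin.H56_CQNE

set_option autoImplicit false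

open Polynomial CuspForm CongruenceSubgroup ModularFormClass IsLocalRing

namespace Fermat.Agent.S59.CaseC.H12

open Fermat.Agent.S59 Fermat.Agent.S59.Asm Fermat.Agent.S59.NonMin Fermat.Agent.S59.CaseC

/-- The prime `p` is not in `S ∖ {p}`. -/
theorem not_mem_erase (S : Finset ℕ) (p : ℕ) : p ∉ (↑(S.erase p) : Set ℕ) := by
  simp

/-- **LGC-pt**: pointwise local–global compatibility at `p` for a Hecke–Galois datum over the
full local Hecke ring of a level `N` prime to `p`.  Same hypotheses as `CaseC.Stmt_CPNE`.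
Conclusion: there are a field `K` of characteristic zero, a ring homomorphism `i : 𝒪 → K` and a
character `x'` of the Hecke algebra of level `N` away from `S ∖ {p}` such that, with
`u := i (πx z)` and `a_p := x' T_p`,   `a_p u = u² + p`   or   `a_p u = 1 + p u²`.
[Eichler–Shimura at `p` on the étale quotient of the `p`-divisible group of `J₀(N)`:
`T_p = F + p F⁻¹`.] -/
def Stmt_LGCpt : Prop :=
  ∀ (𝒪 : Type) [CommRing 𝒪] [IsDomain 𝒪] [IsDiscreteValuationRing 𝒪]
    [IsAdicComplete (maximalIdeal 𝒪) 𝒪] [Finite (ResidueField 𝒪)] [CharZero 𝒪]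
    (p : ℕ) [hpF : Fact p.Prime], p ≠ 2 → (p : 𝒪) ∈ maximalIdeal 𝒪 →
    ∀ (N : ℕ) [NeZero N] [Fact (CuspForm.HasIntegralStructure N 2)] (S : Finset ℕ), p ∈ S →
    (∀ q : ℕ, q.Prime → q ∣ N → q ∈ S) → ∀ (hpN : ¬ p ∣ N),
    ∀ (θ : CuspForm.heckeAlgebra N 2 (↑S : Set ℕ) →+* ResidueField 𝒪)
      (H : CuspForm.HeckeGaloisRepDatum N (↑S : Set ℕ) 𝒪 θ
        (CuspForm.heckeLocal N (↑S : Set ℕ) 𝒪 θ)),
    H.π = CuspForm.heckeLocal.π N (↑S : Set ℕ) 𝒪 θ →
    H.ρ.DetIsCyclotomic p → H.ρ.residual.IsAbsolutelyIrreducible →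
    ∀ (P : ValuationSubring (AlgebraicClosure ℚ)), P.LiesOverPrime p →
    ∀ (ℒ : OrdLine H.ρ P) (g : AlgebraicClosure ℚ ≃ₐ[ℚ] AlgebraicClosure ℚ),
      P.IsFrobeniusAt g p →
    ∀ z : CuspForm.heckeLocal N (↑S : Set ℕ) 𝒪 θ, ℒ.IsQuotEigen g z →
    ∀ πx : CuspForm.heckeLocal N (↑S : Set ℕ) 𝒪 θ →ₐ[𝒪] 𝒪,
    ∃ (K : Type) (_ : Field K) (_ : CharZero K) (i : 𝒪 →+* K)
      (x' : CuspForm.heckeAlgebra N 2 (↑(S.erase p) : Set ℕ) →+* K),
      x' (CuspForm.heckeAlgebra.T hpF.out hpN (not_mem_erase S p)) * i (πx z) =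
          i (πx z) ^ 2 + (p : K) ∨
      x' (CuspForm.heckeAlgebra.T hpF.out hpN (not_mem_erase S p)) * i (πx z) =
          1 + (p : K) * i (πx z) ^ 2

/-- The algebra behind CP-NE: `u² = 1` and `a u = u² + p` or `a u = 1 + p u²` give
`a² = (p + 1)²`. -/
theorem sq_eq_of_root {K : Type} [Field K] (a u c : K) (hu : u ^ 2 = 1)
    (h : a * u = u ^ 2 + c ∨ a * u = 1 + c * u ^ 2) : a ^ 2 = (c + 1) ^ 2 := by
  have h1 : a * u = c + 1 := by
    rcases h with h | h
    · rw [h, hu]; ring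
    · rw [h, hu]; ring
  calc a ^ 2 = a ^ 2 * u ^ 2 := by rw [hu, mul_one]
    _ = (a * u) ^ 2 := by ring
    _ = (c + 1) ^ 2 := by rw [h1]

/-- **CP-NE** from the pointwise local–global compatibility at `p`. -/
theorem cpne_of (hL : Stmt_LGCpt) : Stmt_CPNE := by
  intro 𝒪 _ _ _ _ _ _ p hpF hp2 hp𝒪 N _ _ S hpS hNS hpN θ H hπ hdet hirr P hP ℒ g hg z hz πx h0
  obtain ⟨K, _, _, i, x', hx⟩ :=
    hL 𝒪 p hp2 hp𝒪 N S hpS hNS hpN θ H hπ hdet hirr P hP ℒ g hg z hz πx
  have hu : i (πx z) ^ 2 = 1 := by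
    have h1 : πx z ^ 2 = 1 := sub_eq_zero.mp h0
    rw [← map_pow, h1, map_one]
  exact Fermat.Agent.S59.NonMin.H56.stmt_CQNE N (↑(S.erase p) : Set ℕ) p hpF.out hpN
    (not_mem_erase S p) K x' (sq_eq_of_root _ _ _ hu hx)

end Fermat.Agent.S59.CaseC.H12
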