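/-
S59, package CASE-C, leaf CP-NE (helper12): `stmt_CPNE : CaseC.Stmt_CPNE`, unconditionally.

`cpne_of_geom` (`H12_CPNEBridge.lean`) applied to helper54's `S59.LGC.H54.stmt_LGCpt`
(local–global compatibility at `p` at a point, `S59/LGC/H54_Final.lean`).
-/
import Fermat.Agent.S59.CaseC.H12_CPNEBridge
import Fermat.Agent.S59.LGC.H54_Final

set_option autoImplicit false

namespace Fermat.Agent.S59.CaseC.H12

/-- **CP-NE**, unconditionally: the constant `πx(z)² - 1` does not vanish at a point. -/
theorem stmt_CPNE : Fermat.Agent.S59.CaseC.Stmt_CPNE :=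
  cpne_of_geom Fermat.Agent.S59.LGC.H54.stmt_LGCpt

end Fermat.Agent.S59.CaseC.H12
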