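import Mathlib
import Fermat.Agent.S59.CaseC.Defs
import Fermat.Agent.S59.NonMin.H2_ResOrd

/-!
# S59, package CASE-C: the top wirings (helper2)

* `rtall_of : Stmt_STEP → Stmt_BASE → Asm.Stmt_COND → Datum.Stmt_DATUM → Stmt_TWprimes →
    Asm.Stmt_ASM → Stmt_RTALL`;
* `stmt_CWIRE : Stmt_CWIRE`;
* `stmt_GENPTWIRE : Stmt_GENPTWIRE`.
-/

set_option autoImplicit false
set_option linter.style.haveILetI false
set_option linter.unusedSectionVars false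
set_option linter.unusedVariables false
set_option maxHeartbeats 1000000

open Polynomial CuspForm CongruenceSubgroup ModularFormClass IsLocalRing

namespace Fermat.Agent.S59.CaseC.H2

open Fermat.Agent.S59 Fermat.Agent.S59.Asm Fermat.Agent.S59.NonMin

/-- **RT-ALL** from the leaves of RT-NONMIN. -/
theorem rtall_of (hSTEP : Stmt_STEP) (hBASE : Stmt_BASE)
    (hCOND : Asm.Stmt_COND) (hDATUM : Fermat.Agent.S59.Datum.Stmt_DATUM)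
    (hTWP : Stmt_TWprimes) (hASM : Asm.Stmt_ASM) : Fermat.Agent.S59.CaseC.Stmt_RTALL := by
  intro 𝒪 _ _ _ _ _ _ p _ hp2 hp𝒪 fl ρbar Smin hyp hbar hnf N _ hN θ hθ x₀ hx₀ G M hMnt hG hG₀
    hGstep Sig hSig
  have hpP : p.Prime := Fact.out
  haveI hI : Fact (CuspForm.HasIntegralStructure N 2) := ⟨Fermat.Agent.S23.result N⟩
  obtain ⟨d, hd, hRT₀⟩ := NonMin.H2.rtProp_base 𝒪 p hBASE hCOND hDATUM hTWP hASM hp2 hp𝒪 fl
    ρbar Smin hyp hbar hnf N hN θ hθ x₀ hx₀ M hMnt hG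
  obtain ⟨s, hIs, x, hGs, hLev, hF, hx, hRT⟩ := NonMin.H2.rtProp_of_step 𝒪 p hSTEP hp2 hp𝒪 fl
    ρbar Smin hyp hbar hnf G hGstep d hd (⟨N, Smin, θ, M⟩ : NMState 𝒪) hI x₀ hG₀
    (NonMin.H2.levelHyp_base 𝒪 hpP fl hyp.hS hyp.hpSmin hN θ M) hθ hx₀ hRT₀ Sig hSig
  exact ⟨s, hIs, x, d, hGs, hLev, hF, hx, hd, hRT⟩

/-- **CWIRE**. -/
theorem stmt_CWIRE : Fermat.Agent.S59.CaseC.Stmt_CWIRE := by
  intro hNM2 hRTALL hSTEPP
  intro 𝒪 _ _ _ _ _ _ p _ hp2 hp𝒪 ρbar Smin hyp hbar hord N _ hN θ hθ x₀ hx₀ Sig hSig ρ hρ hres a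
    hfrob
  have hpP : p.Prime := Fact.out
  haveI hI : Fact (CuspForm.HasIntegralStructure N 2) := ⟨Fermat.Agent.S23.result N⟩
  have hNS : ∀ q : ℕ, q.Prime → q ∣ N → q ∈ Smin := by
    intro q hq hqN
    rw [hN] at hqN
    exact Asm.H2.prime_dvd_minLevel hpP true hyp.hS hyp.hpSmin hq hqN
  have hsqf : Squarefree N := by
    rw [hN]
    exact Asm.H2.squarefree_minLevel hpP true hyp.hS
  have hnf : true = false → ¬ (GaloisRepAdic.ofResidualGaloisRep ρbar).IsFlatAt p :=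
    fun h => absurd h (by decide)
  obtain ⟨M, G, hMnt, hG, hG₀, hGstep, hGp⟩ := hNM2 𝒪 p hp2 hp𝒪 ρbar Smin hyp N hNS hsqf θ hθ
  obtain ⟨s, hIs, x, d, hGs, hLev, hF, hx, hd, hRT⟩ := hRTALL 𝒪 p hp2 hp𝒪 true ρbar Smin hyp
    hbar hnf N hN θ hθ x₀ hx₀ G M hMnt hG hG₀ hGstep Sig hSig
  haveI := hIs
  have hpsN : ¬ p ∣ s.N := hLev.hfl rfl
  have hpS : p ∈ s.S := by
    rw [hLev.hS]
    exact Finset.mem_union_left _ hyp.hpSmin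
  haveI : NeZero (s.N * p) := ⟨mul_ne_zero (NeZero.ne s.N) hpP.ne_zero⟩
  haveI hI' : Fact (CuspForm.HasIntegralStructure (s.N * p) 2) :=
    ⟨Fermat.Agent.S23.result (s.N * p)⟩
  obtain ⟨g, hg, hga⟩ := hSTEPP 𝒪 p hp2 hp𝒪 ρbar Smin hyp hbar hord Sig s hLev hF x hx d hd hRT
    (hGp s hGs hpsN hpS) ρ hρ hres a hfrob
  obtain ⟨h1, h2⟩ := NonMin.H2.level_mul_p hpP hpsN hLev.hcube
  exact ⟨s.N * p, h1, h2, g, hg, hga⟩

/-- **GENPTWIRE**: the three cases. -/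
theorem stmt_GENPTWIRE : Fermat.Agent.S59.CaseC.Stmt_GENPTWIRE := by
  intro hnm hc
  intro 𝒪 _ _ _ _ _ _ p _ hp2 hp𝒪 fl ρbar Smin hyp hbar hnf N _ hN θ hθ x₀ hx₀ Sig hSig ρ hdet
    hunr huni hSiguni htype hres a hfrob
  have hunr' : ∀ q : ℕ, q.Prime → q ∉ Smin ∪ Sig → ρ.IsUnramifiedAt q := by
    intro q hq hqS
    exact hunr q hq (fun h => hqS (Finset.mem_union_left _ h))
      (fun h => hqS (Finset.mem_union_right _ h))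
  have huni' : ∀ q ∈ Smin, q.Prime → q ≠ p → ρ.IsUnipotentOnInertiaAt q :=
    fun q hq _ hqp => huni q hq hqp
  have hfrob' : ∀ ℓ : ℕ, ℓ.Prime → ℓ ∉ Smin ∪ Sig →
      ∀ A : ValuationSubring (AlgebraicClosure ℚ), A.LiesOverPrime ℓ →
        ∀ σ : AlgebraicClosure ℚ ≃ₐ[ℚ] AlgebraicClosure ℚ, A.IsFrobeniusAt σ ℓ →
          LinearMap.charpoly (ρ.ρ σ) = X ^ 2 - C (((a ℓ : ℤ) : 𝒪)) * X + C ((ℓ : 𝒪)) := by
    intro ℓ hℓ hℓS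
    exact hfrob ℓ hℓ (fun h => hℓS (Finset.mem_union_left _ h))
      (fun h => hℓS (Finset.mem_union_right _ h))
  have hfin : ∀ (X : ∃ N' : ℕ, ¬ p ^ 2 ∣ N' ∧ (∀ q : ℕ, q.Prime → ¬ q ^ 3 ∣ N') ∧
      ∃ g : CuspForm (Gamma0 N') 2, g.IsNormalizedEigenform ∧
        ∀ ℓ : ℕ, ℓ.Prime → ¬ ℓ ∣ N' → ℓ ∉ Smin ∪ Sig → qCoeff ⇑g ℓ = (a ℓ : ℂ)),
      ∃ N' : ℕ, ¬ p ^ 2 ∣ N' ∧ (∀ q : ℕ, q.Prime → ¬ q ^ 3 ∣ N') ∧
      ∃ g : CuspForm (Gamma0 N') 2, g.IsNormalizedEigenform ∧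
        ∀ ℓ : ℕ, ℓ.Prime → ℓ ∉ Smin → ℓ ∉ Sig → ¬ ℓ ∣ N' → qCoeff ⇑g ℓ = (a ℓ : ℂ) := by
    rintro ⟨N', h1, h2, g, hg, hga⟩
    refine ⟨N', h1, h2, g, hg, fun ℓ hℓ hℓS hℓSig hℓN => hga ℓ hℓ hℓN ?_⟩
    intro h
    rcases Finset.mem_union.mp h with h | h
    · exact hℓS h
    · exact hℓSig h
  rcases htype with hflat | hso
  · cases fl with
    | false => exact absurd (NonMin.H2.stmt_RESFLAT 𝒪 p ρbar ρ hres hflat) (hnf rfl)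
    | true =>
      have hcond : cond 𝒪 p true Smin Sig ρ := ⟨⟨hdet, hflat, hunr'⟩, huni'⟩
      exact hfin (hnm 𝒪 p hp2 hp𝒪 true ρbar Smin hyp hbar hnf N hN θ hθ x₀ hx₀ Sig hSig ρ hcond
        hres a hfrob')
  · cases fl with
    | false =>
      have hcond : cond 𝒪 p false Smin Sig ρ := ⟨⟨hdet, hso, hunr'⟩, huni'⟩
      exact hfin (hnm 𝒪 p hp2 hp𝒪 false ρbar Smin hyp hbar hnf N hN θ hθ x₀ hx₀ Sig hSig ρ
        hcond hres a hfrob')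
    | true =>
      have hcond : Fermat.Agent.S59.CaseC.condOrd 𝒪 p Smin Sig ρ :=
        ⟨⟨hdet, hso.isOrdinaryAt, hunr'⟩, huni'⟩
      have hord : (GaloisRepAdic.ofResidualGaloisRep ρbar).IsOrdinaryAt p :=
        NonMin.H2.stmt_RESORD 𝒪 p ρbar ρ hres hso.isOrdinaryAt
      exact hfin (hc 𝒪 p hp2 hp𝒪 ρbar Smin hyp hbar hord N hN θ hθ x₀ hx₀ Sig hSig ρ hcond hres a
        hfrob')

end Fermat.Agent.S59.CaseC.H2
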