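import Mathlib
import Fermat.Agent.S59.CaseC.Geom.Defs
import Fermat.Agent.S59.CaseC.H2_Wire

/-!
# S59: the top wirings for the final interfaces (helper2)

* `mltnm_of_geom2 : Geom.Stmt_NMGEOM2 → Stmt_STEP → Stmt_BASE → Asm.Stmt_COND →
    Datum.Stmt_DATUM → Stmt_TWprimes → Asm.Stmt_ASM → Stmt_MLTnm`
  (the wiring of RT-NONMIN for helper61's `NonMin.Geom.Stmt_NMGEOM2`);
* `stmt_CWIREp : CaseC.Geom.Stmt_CWIREp` (the wiring of case C, pointwise form).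
-/

set_option autoImplicit false
set_option linter.style.haveILetI false
set_option linter.unusedSectionVars false
set_option linter.unusedVariables false
set_option maxHeartbeats 1000000

open Polynomial CuspForm CongruenceSubgroup ModularFormClass IsLocalRing

namespace Fermat.Agent.S59.CaseC.H2

open Fermat.Agent.S59 Fermat.Agent.S59.Asm Fermat.Agent.S59.NonMin

/-- `NonMin.Geom.Stmt_NMGEOM2` gives what the wiring of RT-NONMIN uses of `Stmt_NMGEOM`. -/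
theorem mltnm_of_geom2 (hNM : Fermat.Agent.S59.NonMin.Geom.Stmt_NMGEOM2) (hSTEP : Stmt_STEP)
    (hBASE : Stmt_BASE) (hCOND : Asm.Stmt_COND)
    (hDATUM : Fermat.Agent.S59.Datum.Stmt_DATUM)
    (hTWP : Stmt_TWprimes) (hASM : Asm.Stmt_ASM) : Stmt_MLTnm := by
  intro 𝒪 _ _ _ _ _ _ p _ hp2 hp𝒪 fl ρbar Smin hyp hbar hnf N _ hN θ hθ x₀ hx₀ Sig hSig ρ hρ
    hres a hfrob
  have hpP : p.Prime := Fact.out
  haveI hI : Fact (CuspForm.HasIntegralStructure N 2) := ⟨Fermat.Agent.S23.result N⟩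
  have hNS : ∀ q : ℕ, q.Prime → q ∣ N → q ∈ Smin := by
    intro q hq hqN
    rw [hN] at hqN
    exact Asm.H2.prime_dvd_minLevel hpP fl hyp.hS hyp.hpSmin hq hqN
  have hsqf : Squarefree N := by
    rw [hN]
    exact Asm.H2.squarefree_minLevel hpP fl hyp.hS
  have hpNflat : p ∣ N → ¬ (GaloisRepAdic.ofResidualGaloisRep ρbar).IsFlatAt p := by
    intro hpN
    apply hnf
    cases hfl : fl with
    | false => rfl
    | true =>
      exfalso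
      rw [hN, hfl] at hpN
      exact Asm.H2.not_dvd_minLevel_of_fl hpP hyp.hS hpN
  obtain ⟨M, G, hMnt, hG, hG₀, hGstep⟩ :=
    hNM 𝒪 p hp2 hp𝒪 ρbar Smin hyp N hNS hsqf hpNflat θ hθ
  obtain ⟨s, hIs, x, d, -, hLev, -, -, hd, hRT⟩ :=
    rtall_of hSTEP hBASE hCOND hDATUM hTWP hASM 𝒪 p hp2 hp𝒪 fl ρbar Smin hyp hbar hnf N hN θ hθ
      x₀ hx₀ G M hMnt hG hG₀ hGstep Sig hSig
  haveI := hIs
  obtain ⟨-, D, H, φ, hφ, ηhat, πx, hHπ, hφbij, hφe, -, -, -, -⟩ := hRT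
  have hmem : ∀ ℓ : ℕ, ℓ ∉ (↑s.S : Set ℕ) → ℓ ∉ Smin ∪ Sig := by
    intro ℓ hℓ h
    apply hℓ
    rw [Finset.mem_coe, hLev.hS]
    exact h
  have hmem' : ∀ ℓ : ℕ, ℓ ∉ Smin ∪ Sig → ℓ ∉ (↑s.S : Set ℕ) := by
    intro ℓ hℓ h
    apply hℓ
    rw [Finset.mem_coe, hLev.hS] at h
    exact h
  obtain ⟨g, hg, hga⟩ := eigenform_of_RT D H φ hφbij.2 hφbij.1 hφ hφe ρ hρ hres a
    (fun ℓ hℓ hℓN hℓS A hA σ hσ => hfrob ℓ hℓ (hmem ℓ hℓS) A hA σ hσ)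
  refine ⟨s.N, ?_, hLev.hcube, g, hg, fun ℓ hℓ hℓN hℓS => hga ℓ hℓ hℓN (hmem' ℓ hℓS)⟩
  cases hfl : fl with
  | false => exact (hLev.hso hfl).2
  | true =>
    intro h
    exact hLev.hfl hfl ((dvd_pow_self p (by norm_num : (2 : ℕ) ≠ 0)).trans h)

/-- **CWIREp**: the wiring of case C, pointwise form. -/
theorem stmt_CWIREp : Fermat.Agent.S59.CaseC.Geom.Stmt_CWIREp := by
  intro hNMp hRTALL hSTEPP 𝒪 _ _ _ _ _ _ p _ hp2 hp𝒪 ρbar Smin hyp hbar hord N _ hN θ hθ x₀ hx₀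
    Sig hSig ρ hρ hres a hfrob
  have hpP : p.Prime := Fact.out
  haveI hI : Fact (CuspForm.HasIntegralStructure N 2) := ⟨Fermat.Agent.S23.result N⟩
  have hNS : ∀ q : ℕ, q.Prime → q ∣ N → q ∈ Smin := by
    intro q hq hqN
    rw [hN] at hqN
    exact Asm.H2.prime_dvd_minLevel hpP true hyp.hS hyp.hpSmin hq hqN
  have hsqf : Squarefree N := by
    rw [hN]
    exact Asm.H2.squarefree_minLevel hpP true hyp.hS
  have hpN : ¬ p ∣ N := by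
    rw [hN]
    exact Asm.H2.not_dvd_minLevel_of_fl hpP hyp.hS
  have hnf : true = false → ¬ (GaloisRepAdic.ofResidualGaloisRep ρbar).IsFlatAt p :=
    fun h => absurd h (by decide)
  obtain ⟨M, G, hMnt, hG, hG₀, hGstep, hGp⟩ :=
    hNMp 𝒪 p hp2 hp𝒪 ρbar Smin hyp hbar hord N hNS hsqf hpN θ hθ
  obtain ⟨s, hIs, x, d, hGs, hLev, hF, hx, hd, hRT⟩ := hRTALL 𝒪 p hp2 hp𝒪 true ρbar Smin hyp
    hbar hnf N hN θ hθ x₀ hx₀ G M hMnt hG hG₀ hGstep Sig hSig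
  haveI := hIs
  have hpsN : ¬ p ∣ s.N := hLev.hfl rfl
  have hpS : p ∈ s.S := by
    rw [hLev.hS]
    exact Finset.mem_union_left _ hyp.hpSmin
  haveI : NeZero (s.N * p) := ⟨mul_ne_zero (NeZero.ne s.N) hpP.ne_zero⟩
  haveI hI' : Fact (CuspForm.HasIntegralStructure (s.N * p) 2) :=
    ⟨Fermat.Agent.S23.result (s.N * p)⟩
  obtain ⟨g, hg, hga⟩ := hSTEPP 𝒪 p hp2 hp𝒪 ρbar Smin hyp hbar hord Sig s hLev hF x hx d hd hRT
    (hGp s hGs hpsN hpS) ρ hρ hres a hfrob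
  obtain ⟨h1, h2⟩ := NonMin.H2.level_mul_p hpP hpsN hLev.hcube
  exact ⟨s.N * p, h1, h2, g, hg, hga⟩

end Fermat.Agent.S59.CaseC.H2
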