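import Fermat.Agent.S59.CaseC.Defs
import Fermat.Agent.S59.NonMin.H48_KumCore

/-!
# S59, case C (helper48): `CaseC.Stmt_KUMP`

The cocycle form of KUM-p in the vocabulary of `CaseC/Defs.lean`, from
`NonMin.H48.kum_core` (which needs no primitivity of `ζ`).
-/

set_option autoImplicit false

namespace Fermat.Agent.S59.CaseC.H48C

/-- The peu ramifié inertia of `CaseC/Defs.lean` is contained in that of `NonMin/Defs2.lean`. -/
theorem mem_Ipeu_of_mem_peuSubgroup {p : ℕ} {P : ValuationSubring (AlgebraicClosure ℚ)}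
    {σ : AlgebraicClosure ℚ ≃ₐ[ℚ] AlgebraicClosure ℚ} (hσ : σ ∈ peuSubgroup p P) :
    σ ∈ Fermat.Agent.S59.NonMin.Ipeu p P :=
  ⟨hσ.1, fun y n hy => hσ.2 y n hy.1 hy.2.1 hy.2.2.2⟩

/-- **`CaseC.Stmt_KUMP`.** -/
theorem stmt_KUMP : Stmt_KUMP := by
  intro p _ _ P hP A _ n hA b hcont hcoc π₀ ζ hπ₀ _ h₀ hh₀ hζ h hh m hm
  obtain ⟨F, hFfin, hF⟩ := hcont
  haveI := hFfin
  exact Fermat.Agent.S59.NonMin.H48.kum_core p Fact.out P hP A n hA b F
    (fun σ _ hfix => hF σ hfix) hcoc π₀ ζ hπ₀ h₀ (mem_Ipeu_of_mem_peuSubgroup hh₀) hζ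
    h (mem_Ipeu_of_mem_peuSubgroup hh) m hm

end Fermat.Agent.S59.CaseC.H48C
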