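import Mathlib
import Fermat.Agent.S59.CaseC.Defs
import Fermat.Agent.S59.NonMin.Defs2

/-!
# S59, case C (helper85): the Selmer bound at `p`, from the `NonMin` form to the `CaseC` form

`NonMin.Stmt_SELMERp` bounds the growth of the cotangent space by `#(𝒪 / c)`,
`c² = x (tr ρ(g'))² - 4`, for `g'` in the decomposition group FIXING `μ_{p^∞}`;
`CaseC.Stmt_SELMERp` bounds it by `#(𝒪 / (x z² - 1))`, `z` the eigenvalue of ANY `g` in the
decomposition group on the quotient by the ordinary line.

Bridge: `g' := g * i`, `i` in the inertia group with `g * i` fixing `μ_{p^∞}` (`Stmt_EXISTSi`: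
the cyclotomic character of the inertia group is onto).  Inertia acts trivially on the quotient,
so `z` is the eigenvalue of `g'` on the quotient as well; `det ρ(g') = 1`; so
`ρ(g') = [[z⁻¹, *], [0, z]]`, `tr = z + z⁻¹`, and `c := x z - x z⁻¹` satisfies
`c² = x(tr)² - 4`, `(c) = (x z² - 1)`.

* `Stmt_EXISTSi`   : the input on the inertia group (leaf for helper77).
* `selmerp_bridge` : `NonMin.Stmt_SELMERp → Stmt_EXISTSi → CaseC.Stmt_SELMERp`.
-/

set_option autoImplicit false

open IsLocalRing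

namespace Fermat.Agent.S59.CaseC.H85

open Fermat.Agent.S59 Fermat.Agent.S59.NonMin

/-- The Galois group of `ℚ`. -/
local notation "Γℚ" => AlgebraicClosure ℚ ≃ₐ[ℚ] AlgebraicClosure ℚ

/-- **EXISTS-i**: every element of the decomposition group at `P ∣ p` can be corrected by an
element of the inertia group so that it fixes all `p`-power roots of unity.
[The decomposition group of `P` in `Gal(ℚ̄ / ℚ(μ_{p^∞}))` maps ONTO the Galois group of the
residue field over `𝔽_p` (`ℚ(μ_{p^∞})` is totally ramified at `p`); take `h` there with the image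
of `g` and `i := g⁻¹ h`.] -/
def Stmt_EXISTSi : Prop :=
  ∀ (p : ℕ), p.Prime →
  ∀ (P : ValuationSubring (AlgebraicClosure ℚ)), P.LiesOverPrime p →
  ∀ g ∈ P.decompositionSubgroup ℚ, ∃ i ∈ P.inertiaSubgroupIn ℚ, FixesPRoots p (g * i)

/-- The inertia group lies in the decomposition group. -/
theorem mem_decomposition_of_mem_inertia {P : ValuationSubring (AlgebraicClosure ℚ)} {σ : Γℚ}
    (h : σ ∈ P.inertiaSubgroupIn ℚ) : σ ∈ P.decompositionSubgroup ℚ := by
  obtain ⟨s, -, rfl⟩ := h
  exact s.2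

section lin

variable {A : Type} [CommRing A] {V : Type} [AddCommGroup V] [Module A V]

/-- Coordinates of an endomorphism which stabilises the line `A b₀` and is `z` modulo it. -/
theorem trace_det_of_line (b : Module.Basis (Fin 2) A V) (f : V →ₗ[A] V) (χ z : A)
    (h1 : f (b 0) = χ • b 0) (h2 : f (b 1) - z • b 1 ∈ Submodule.span A {b 0}) :
    LinearMap.trace A V f = χ + z ∧ LinearMap.det f = χ * z := by
  obtain ⟨β, hβ⟩ := Submodule.mem_span_singleton.1 h2
  have h3 : f (b 1) = β • b 0 + z • b 1 := by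
    rw [hβ]; abel
  have m00 : LinearMap.toMatrix b b f 0 0 = χ := by
    rw [LinearMap.toMatrix_apply, h1]
    simp
  have m10 : LinearMap.toMatrix b b f 1 0 = 0 := by
    rw [LinearMap.toMatrix_apply, h1]
    simp
  have m11 : LinearMap.toMatrix b b f 1 1 = z := by
    rw [LinearMap.toMatrix_apply, h3]
    simp
  constructor
  · rw [LinearMap.trace_eq_matrix_trace A b f, Matrix.trace_fin_two, m00, m11]
  · rw [← LinearMap.det_toMatrix b, Matrix.det_fin_two, m00, m11, m10, mul_zero, sub_zero]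

end lin

/-- In a noetherian local ring with `p` in the maximal ideal, an element which is divisible by
every power of `p` is zero. -/
theorem eq_zero_of_forall_mem_span_pow {R : Type} [CommRing R] [IsLocalRing R]
    [IsNoetherianRing R] (p : ℕ) (hp : (p : R) ∈ maximalIdeal R) (y : R)
    (h : ∀ n : ℕ, y ∈ Ideal.span {((p ^ n : ℕ) : R)}) : y = 0 := by
  have h1 : ∀ n : ℕ, y ∈ maximalIdeal R ^ n := by
    intro n
    have h2 : Ideal.span {((p ^ n : ℕ) : R)} ≤ maximalIdeal R ^ n := by
      rw [Ideal.span_singleton_le_iff_mem]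
      push_cast
      exact Ideal.pow_mem_pow hp n
    exact h2 (h n)
  have h3 : y ∈ (⨅ n : ℕ, maximalIdeal R ^ n : Ideal R) := by
    rw [Ideal.mem_iInf]
    exact h1
  rw [Ideal.iInf_pow_eq_bot_of_isLocalRing (maximalIdeal R)
    (Ideal.IsMaximal.ne_top (maximalIdeal.isMaximal R))] at h3
  exact h3

/-- The determinant of a representation with cyclotomic determinant is `1` on the elements fixing
the `p`-power roots of unity. -/
theorem det_eq_one_of_fixesPRoots {R : Type} [CommRing R] [IsLocalRing R] [IsNoetherianRing R]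
    (ρ : GaloisRepAdic R) (p : ℕ) (hdet : ρ.DetIsCyclotomic p) (g : Γℚ)
    (hg : FixesPRoots p g) : LinearMap.det (ρ.ρ g) = 1 := by
  have h := eq_zero_of_forall_mem_span_pow p hdet.1 (LinearMap.det (ρ.ρ g) - 1) (fun n => by
    have := hdet.2 n g 1 (fun μ hμ => by rw [pow_one]; exact hg n μ hμ)
    simpa using this)
  exact sub_eq_zero.1 h

/-- **The bridge**: the Selmer bound at `p` in the `CaseC` form follows from the `NonMin` form. -/
theorem selmerp_bridge (hS : Fermat.Agent.S59.NonMin.Stmt_SELMERp) (hE : Stmt_EXISTSi) :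
    Fermat.Agent.S59.CaseC.Stmt_SELMERp := by
  intro 𝒪 _ _ _ _ _ p _ hp2 hp𝒪 ρbar Smin Sig _habs hpS hprime D D' τ hτ heq x P hP ℒ g hg z hz
    hne hfin
  have hp : p.Prime := Fact.out
  -- the corrected element
  obtain ⟨i, hi, hfix⟩ := hE p hp P hP g hg
  have hgi : g * i ∈ P.decompositionSubgroup ℚ :=
    mul_mem hg (mem_decomposition_of_mem_inertia hi)
  -- the line
  obtain ⟨b, hb⟩ := ℒ.isLine
  have hb0 : b 0 ∈ ℒ.L := by
    rw [hb]; exact Submodule.mem_span_singleton_self _
  obtain ⟨χ, hχ⟩ : ∃ χ : D.R, D.ρ.ρ (g * i) (b 0) = χ • b 0 := by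
    have h1 := ℒ.stable (g * i) hgi (b 0) hb0
    rw [hb] at h1
    obtain ⟨χ, hχ⟩ := Submodule.mem_span_singleton.1 h1
    exact ⟨χ, hχ.symm⟩
  have hquot : D.ρ.ρ (g * i) (b 1) - z • b 1 ∈ Submodule.span D.R {b 0} := by
    rw [← hb]
    have h1 : D.ρ.ρ (g * i) (b 1) - z • b 1 =
        D.ρ.ρ g (D.ρ.ρ i (b 1) - b 1) + (D.ρ.ρ g (b 1) - z • b 1) := by
      rw [map_mul, Module.End.mul_apply, map_sub]
      abel
    rw [h1]
    exact ℒ.L.add_mem (ℒ.stable g hg _ (ℒ.inertia i hi (b 1))) (hz (b 1))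
  obtain ⟨htr, hdet⟩ := trace_det_of_line b (D.ρ.ρ (g * i)) χ z hχ hquot
  have hDdet : D.ρ.DetIsCyclotomic p := D.isOfType.1.1
  have hone : χ * z = 1 := by
    rw [← hdet]
    exact det_eq_one_of_fixesPRoots D.ρ p hDdet (g * i) hfix
  have hxone : x χ * x z = 1 := by
    rw [← map_mul, hone, map_one]
  -- the constant
  have hc2 : (x z - x χ) ^ 2 = x (D.ρ.trace (g * i)) ^ 2 - 4 := by
    have h1 : D.ρ.trace (g * i) = χ + z := htr
    rw [h1, map_add]
    linear_combination (-4 : 𝒪) * hxone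
  have hmul : x z * (x z - x χ) = x z ^ 2 - 1 := by
    linear_combination (-1 : 𝒪) * hxone
  have hc0 : x z - x χ ≠ 0 := by
    intro h0
    apply hne
    rw [← hmul, h0, mul_zero]
  have hspan : Ideal.span {x z - x χ} = Ideal.span {x z ^ 2 - 1} := by
    have hu : IsUnit (x z) := IsUnit.of_mul_eq_one _ (by rw [mul_comm]; exact hxone)
    rw [← hmul]
    exact (Ideal.span_singleton_mul_left_unit hu _).symm
  have key := hS 𝒪 p hp2 hp𝒪 ρbar Smin Sig hpS hprime D D' τ hτ heq x P hP (g * i) hgi hfix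
    (x z - x χ) hc2 hc0 hfin
  rw [hspan] at key
  exact key

end Fermat.Agent.S59.CaseC.H85
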