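import Fermat.Agent.S59.NonMin.H80_SelmerP
import Fermat.Agent.S59.NonMin.H48_KumP
import Fermat.Agent.S59.NonMin.H56_PeuFlat
import Fermat.Agent.S59.NonMin.H77_ExistsI
import Fermat.Agent.S59.CaseC.H85_SelmerBridge

/-!
# S59, case C: the Selmer bound at `p`, UNCONDITIONAL (helper80)

Pure wiring of landed leaves:

* `stmt_SELMERp_nonMin : NonMin.Stmt_SELMERp`
    = `NonMin.H80.selmerp_of` (helper80) applied to KUM-p (helper48) and PEUFLAT
      (helper92 + helper56).
* `stmt_SELMERp : CaseC.Stmt_SELMERp`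
    = `CaseC.H85.selmerp_bridge` (helper85) applied to the above and EXISTS-i (helper77).
-/

set_option autoImplicit false

namespace Fermat.Agent.S59.CaseC.H80

/-- **SELMER-p**, `NonMin` form, unconditional. -/
theorem stmt_SELMERp_nonMin : Fermat.Agent.S59.NonMin.Stmt_SELMERp :=
  Fermat.Agent.S59.NonMin.H80.selmerp_of Fermat.Agent.S59.NonMin.H48.stmt_KUMp
    Fermat.Agent.S59.NonMin.H56K.stmt_PEUFLAT

/-- **SELMER-p**, `CaseC` form, unconditional. -/
theorem stmt_SELMERp : Fermat.Agent.S59.CaseC.Stmt_SELMERp :=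
  Fermat.Agent.S59.CaseC.H85.selmerp_bridge stmt_SELMERp_nonMin
    Fermat.Agent.S59.NonMin.H77.stmt_EXISTSi

end Fermat.Agent.S59.CaseC.H80
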