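import Fermat.Agent.S59.CaseC.H85_SelmerBridge
import Fermat.Agent.S59.NonMin.H80_SelmerP
import Fermat.Agent.S59.NonMin.H92_PeuFlat
import Fermat.Agent.S59.NonMin.H77_ExistsI

/-!
# S59, case C (helper85): `CaseC.Stmt_SELMERp` from the two open Galois leaves

`selmerp_of_leaves : NonMin.Stmt_KUMp → NonMin.H92P.Stmt_KCore → CaseC.Stmt_SELMERp`.

Chain: `H92P.peuflat_of_kcore` (helper92), `H80.selmerp_of` (helper80), `H77.stmt_EXISTSi`
(helper77), `H85.selmerp_bridge`.  Open inputs: KUM-p (helper48), K-CORE (helper56).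
-/

set_option autoImplicit false

namespace Fermat.Agent.S59.CaseC.H85

/-- The Selmer bound at `p`, `NonMin` form, from KUM-p and K-CORE. -/
theorem selmerp_nonMin_of_leaves (hK : Fermat.Agent.S59.NonMin.Stmt_KUMp)
    (hC : Fermat.Agent.S59.NonMin.H92P.Stmt_KCore) : Fermat.Agent.S59.NonMin.Stmt_SELMERp :=
  Fermat.Agent.S59.NonMin.H80.selmerp_of hK (Fermat.Agent.S59.NonMin.H92P.peuflat_of_kcore hC)

/-- **SELMER-p** in the canonical (`CaseC`) form, from KUM-p and K-CORE. -/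
theorem selmerp_of_leaves (hK : Fermat.Agent.S59.NonMin.Stmt_KUMp)
    (hC : Fermat.Agent.S59.NonMin.H92P.Stmt_KCore) : Fermat.Agent.S59.CaseC.Stmt_SELMERp :=
  selmerp_bridge (selmerp_nonMin_of_leaves hK hC) Fermat.Agent.S59.NonMin.H77.stmt_EXISTSi

end Fermat.Agent.S59.CaseC.H85
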